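/-
S56 block (F), sub-block F-C: THE ORDINARY CASE (CASE R: some line of `k²` is stable under `r(D)`).  DEFINITIONS.
Blueprint: team report 279 (F-0 CASE R/OT/CE, F-C), refined in the docstrings of `S56/F/Ord/*.lean`.

`P : Plc` a place of `Qb` over `p = P.ℓ` (odd), `D = P.dec`, `I = P.ine`, `k` a finite field of characteristic `p`,
`r : G →* GL₂(k)`, `c : G → M₂(k)`.
-/
import Fermat.Agent.S56.F.Model
import Fermat.Agent.S56.F.Order.Points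
import Fermat.Agent.S56.F.Order.SubQuot
import Fermat.Agent.S56.F.LF.All

set_option autoImplicit false

open Fermat.Agent.PT.Local Matrix
open Fermat.Agent.S53 (G M2)
open Fermat.Agent.S56.C (ad rm)

noncomputable section

namespace Fermat.Agent.S56.F.Ord

variable {k : Type} [Field k]

/-- `σ` acts on the `p`-th roots of unity by `μ ↦ μ ^ m` ("`ω(σ) = m`"). -/
def IsOm (p : ℕ) (σ : GQ) (m : ℕ) : Prop := ∀ μ : Qb, μ ^ p = 1 → σ μ = μ ^ m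

/-- `r` is trivial on an open subgroup. -/
def RSm (r : G →* GL (Fin 2) k) : Prop :=
  ∃ L : Fld, FiniteDimensional ℚ L ∧ ∀ σ : GQ, (∀ x ∈ L, σ x = x) → r σ = 1

/-- `det r = ω` on the inertia group. -/
def DetOm (P : Plc) (r : G →* GL (Fin 2) k) : Prop :=
  ∀ σ ∈ P.ine, ∀ m : ℕ, IsOm P.ℓ σ m → (rm r σ).det = (m : k)

/-- `y : I → k(ω)` is *peu ramifie*: for every additive `l : k → F_p` the cocycle `s ↦ ζ ^ l(y s)` of `I` with values in `μ_p`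
is `s ↦ s β / β` with `v(β) ∈ v(p)^ℤ` (i.e. `u = β ^ p ∈ (Qb^I)ˣ` has valuation divisible by `p`).
Only depends on `y|I`. -/
def PeuK (P : Plc) (y : GQ → k) : Prop :=
  ∀ (l : k →+ ZMod P.ℓ) (ζ : Qb), IsPrimitiveRoot ζ P.ℓ →
    ∃ β : Qb, β ≠ 0 ∧ (∀ s ∈ P.ine, s β = ζ ^ (l (y s)).val * β) ∧ ∃ n : ℤ, P.v β = P.v (P.ℓ : Qb) ^ n

/-- `r|D` is upper triangular, `= (ω, *; 0, 1)` on `I`. -/
structure UT0 (P : Plc) (r : G →* GL (Fin 2) k) : Prop where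
  low : ∀ σ ∈ P.dec, rm r σ 1 0 = 0
  a_ine : ∀ σ ∈ P.ine, ∀ m : ℕ, IsOm P.ℓ σ m → rm r σ 0 0 = (m : k)
  d_ine : ∀ σ ∈ P.ine, rm r σ 1 1 = 1

/-- ... and the extension class is peu ramifie. -/
structure UT (P : Plc) (r : G →* GL (Fin 2) k) : Prop extends UT0 P r where
  peu : PeuK P (fun σ => rm r σ 0 1)

/-- `c|D` is a smooth trace zero cocycle. -/
structure CocD (P : Plc) (r : G →* GL (Fin 2) k) (c : G → M2 k) : Prop where
  coc : ∀ σ ∈ P.dec, ∀ τ ∈ P.dec, c (σ * τ) = c σ + ad (r σ) (c τ)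
  tr0 : ∀ σ ∈ P.dec, (c σ).trace = 0
  smooth : ∃ L : Fld, FiniteDimensional ℚ L ∧ ∀ σ ∈ P.dec, (∀ x ∈ L, σ x = x) → c σ = 0

/-- `c|D` is upper triangular, strictly upper triangular on `I`. -/
structure NormC0 (P : Plc) (c : G → M2 k) : Prop where
  low : ∀ σ ∈ P.dec, c σ 1 0 = 0
  diag : ∀ σ ∈ P.ine, c σ 0 0 = 0

/-- ... and peu ramifie. -/
structure NormC (P : Plc) (c : G → M2 k) : Prop extends NormC0 P c where
  peu : PeuK P (fun σ => c σ 0 1)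

/-- The ordinary-flat local condition, for `r` with `UT P r`. -/
def LLut (P : Plc) (r : G →* GL (Fin 2) k) (c : G → M2 k) : Prop :=
  CocD P r c ∧ ∃ X : M2 k, NormC P (c + cob r X)

/-- `c|D` is a (trace zero) coboundary. -/
def BD (P : Plc) (r : G →* GL (Fin 2) k) (c : G → M2 k) : Prop :=
  ∃ X : M2 k, X.trace = 0 ∧ ∀ σ ∈ P.dec, c σ = ad (r σ) X - X

/-- (general coordinates) the line `k v` is `D`-stable and `I` acts trivially on `k² / k v`. -/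
structure OrdLine (P : Plc) (r : G →* GL (Fin 2) k) (v : Fin 2 → k) : Prop where
  dec : ∀ σ ∈ P.dec, ∃ x : k, rm r σ *ᵥ v = x • v
  ine : ∀ σ ∈ P.ine, ∀ w : Fin 2 → k, ∃ y : k, rm r σ *ᵥ w - w = y • v

/-- (general coordinates) `c σ` preserves the line `k v` for `σ ∈ D` and has image in `k v` for `σ ∈ I`. -/
structure NormV (P : Plc) (v : Fin 2 → k) (c : G → M2 k) : Prop where
  dec : ∀ σ ∈ P.dec, ∃ x : k, c σ *ᵥ v = x • v
  ine : ∀ σ ∈ P.ine, ∀ w : Fin 2 → k, ∃ y : k, c σ *ᵥ w = y • v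

/-- THE OUTPUT CONTRACT of F-C (= `B.LocCond` + the count of `B.FunContract` with `e = 1`). -/
structure IsLocCond (P : Plc) (r : G →* GL (Fin 2) k) (LL : (G → M2 k) → Prop) : Prop where
  add : ∀ c c', LL c → LL c' → LL (c + c')
  cob : ∀ X : M2 k, LL (cob r X)
  congr : ∀ c c', (∀ σ ∈ P.dec, c σ = c' σ) → LL c → LL c'
  count : ∃ T : Finset (G → M2 k),
    T.card ≤ Nat.card {X : M2 k // X.trace = 0 ∧ ∀ σ ∈ P.dec, ad (r σ) X = X} * Nat.card k ∧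
      ∀ c, LL c → ∃ t ∈ T, BD P r (c - t)

/-- the "wedge" `det (v | w)` of two vectors of `k²`. -/
def wdg (v w : Fin 2 → k) : k := v 0 * w 1 - v 1 * w 0

/-- `χ : D → kˣ` is a character with `χ|I = ω`. -/
structure IsChi (P : Plc) (χ : GQ → k) : Prop where
  mul : ∀ σ ∈ P.dec, ∀ τ ∈ P.dec, χ (σ * τ) = χ σ * χ τ
  ne : ∀ σ ∈ P.dec, χ σ ≠ 0
  ine : ∀ σ ∈ P.ine, ∀ m : ℕ, IsOm P.ℓ σ m → χ σ = (m : k)

/-- `Z¹_peu(D, k(χ))`. -/
structure Z1peu (P : Plc) (χ : GQ → k) (y : GQ → k) : Prop where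
  coc : ∀ σ ∈ P.dec, ∀ τ ∈ P.dec, y (σ * τ) = y σ + χ σ * y τ
  peu : PeuK P y

/-- `B¹(D, k(χ))`. -/
def B1 (P : Plc) (χ : GQ → k) (y : GQ → k) : Prop := ∃ z : k, ∀ σ ∈ P.dec, y σ = (χ σ - 1) * z

/-- "`m = lc(u_l)`": the leading coefficient (`e = 1`, `lam = -p`, level `1`) of the Kummer element of `l ∘ y|I`. -/
def LamRel (P : Plc) (ζ : Qb) (y : GQ → k) (l : k →+ ZMod P.ℓ) (m : LF.FF P) : Prop :=
  ∃ u : Qb, LF.IsKum P.ine ζ (fun s => l (y s)) u ∧ LF.LC P (-(P.ℓ : Qb)) 1 u m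

end Fermat.Agent.S56.F.Ord

end
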