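/-
S56 F-C, leaf `Wdg`: the wedge `wdg v w = v 0 * w 1 - v 1 * w 0` of two vectors of `k²`.  Mathlib only, all by `Fin 2` computations
(`Matrix.mulVec`, `dotProduct`, `Fin.sum_univ_two`, `Matrix.det_fin_two`, `Matrix.trace_fin_two`, `ring`).
-/
import Fermat.Agent.S56.F.Ord.Defs

set_option autoImplicit false

open Matrix
open Fermat.Agent.S53 (M2)

namespace Fermat.Agent.S56.F.Ord

variable {k : Type} [Field k]

theorem wdg_self (v : Fin 2 → k) : wdg v v = 0 := by
  unfold wdg; ring

theorem wdg_add_right (v w w' : Fin 2 → k) : wdg v (w + w') = wdg v w + wdg v w' := by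
  simp only [wdg, Pi.add_apply]; ring

theorem wdg_sub_right (v w w' : Fin 2 → k) : wdg v (w - w') = wdg v w - wdg v w' := by
  simp only [wdg, Pi.sub_apply]; ring

theorem wdg_smul_right (a : k) (v w : Fin 2 → k) : wdg v (a • w) = a * wdg v w := by
  simp only [wdg, Pi.smul_apply, smul_eq_mul]; ring

theorem wdg_smul_left (a : k) (v w : Fin 2 → k) : wdg (a • v) w = a * wdg v w := by
  simp only [wdg, Pi.smul_apply, smul_eq_mul]; ring

theorem wdg_mulVec (M : M2 k) (v w : Fin 2 → k) : wdg (M *ᵥ v) (M *ᵥ w) = M.det * wdg v w := by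
  simp only [wdg, Matrix.mulVec, dotProduct, Fin.sum_univ_two, Matrix.det_fin_two]; ring

theorem wdg_trace (M : M2 k) (v w : Fin 2 → k) :
    wdg (M *ᵥ v) w + wdg v (M *ᵥ w) = M.trace * wdg v w := by
  simp only [wdg, Matrix.mulVec, dotProduct, Fin.sum_univ_two, Matrix.trace_fin_two]; ring

/-- `w ∈ k v ↔ v ∧ w = 0`.  (`→`: `wdg_smul_right`, `wdg_self`.  `←`: if `v 0 ≠ 0` take `y = w 0 / v 0`, else `v 1 ≠ 0`, `y = w 1 / v 1`;
`funext i; fin_cases i`, `field_simp`, `linear_combination`.) -/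
theorem wdg_eq_zero_iff {v : Fin 2 → k} (hv : v ≠ 0) (w : Fin 2 → k) : wdg v w = 0 ↔ ∃ y : k, w = y • v := by
  constructor
  · intro h
    have h' : v 0 * w 1 - v 1 * w 0 = 0 := h
    by_cases h0 : v 0 = 0
    · have h1 : v 1 ≠ 0 := by
        intro h1
        apply hv
        funext i
        fin_cases i
        · exact h0
        · exact h1
      refine ⟨w 1 / v 1, ?_⟩
      funext i
      fin_cases i
      · show w 0 = w 1 / v 1 * v 0
        field_simp
        linear_combination -h'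
      · show w 1 = w 1 / v 1 * v 1
        field_simp
    · refine ⟨w 0 / v 0, ?_⟩
      funext i
      fin_cases i
      · show w 0 = w 0 / v 0 * v 0
        field_simp
      · show w 1 = w 0 / v 0 * v 1
        field_simp
        linear_combination h'
  · rintro ⟨y, rfl⟩
    rw [wdg_smul_right, wdg_self, mul_zero]

/-- (`w = ![0, 1]` or `![1, 0]`.) -/
theorem exists_wdg_ne_zero {v : Fin 2 → k} (hv : v ≠ 0) : ∃ w : Fin 2 → k, wdg v w ≠ 0 := by
  by_cases h0 : v 0 = 0
  · have h1 : v 1 ≠ 0 := by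
      intro h1
      apply hv
      funext i
      fin_cases i
      · exact h0
      · exact h1
    refine ⟨![1, 0], ?_⟩
    simpa [wdg] using h1
  · refine ⟨![0, 1], ?_⟩
    simpa [wdg] using h0

/-- `M` acts on `k² / k v` by `det M / x`:  `x * wdg v (M w) = wdg (M v) (M w) = det M * wdg v w`. -/
theorem quot_eigen {M : M2 k} {v : Fin 2 → k} (hv : v ≠ 0) {x : k} (hx : x ≠ 0) (h : M *ᵥ v = x • v)
    (w : Fin 2 → k) : ∃ y : k, M *ᵥ w - (M.det / x) • w = y • v := by
  rw [← wdg_eq_zero_iff hv, wdg_sub_right, wdg_smul_right]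
  have h1 := wdg_mulVec M v w
  rw [h, wdg_smul_left] at h1
  field_simp
  linear_combination h1

/-- two eigenvectors for an eigenvalue `μ` with `μ² ≠ det M` are proportional: `μ² wdg v y = det M wdg v y`. -/
theorem eigen_unique {M : M2 k} {v y : Fin 2 → k} (hv : v ≠ 0) {μ : k} (hμ : μ * μ ≠ M.det)
    (h : M *ᵥ v = μ • v) (h' : M *ᵥ y = μ • y) : ∃ a : k, y = a • v := by
  rw [← wdg_eq_zero_iff hv]
  have h1 := wdg_mulVec M v y
  rw [h, h', wdg_smul_left, wdg_smul_right] at h1
  have h2 : (μ * μ - M.det) * wdg v y = 0 := by linear_combination h1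
  rcases mul_eq_zero.mp h2 with h3 | h3
  · exact absurd (sub_eq_zero.mp h3) hμ
  · exact h3

/-- a matrix with prescribed value on a non zero vector (`X = vecMulVec x φ`, `φ ⬝ᵥ v = 1`). -/
theorem exists_matrix_mulVec {v : Fin 2 → k} (hv : v ≠ 0) (x : Fin 2 → k) : ∃ X : M2 k, X *ᵥ v = x := by
  by_cases h0 : v 0 = 0
  · have h1 : v 1 ≠ 0 := by
      intro h1
      apply hv
      funext i
      fin_cases i
      · exact h0
      · exact h1
    refine ⟨!![0, x 0 / v 1; 0, x 1 / v 1], ?_⟩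
    funext i
    fin_cases i
    · simp [Matrix.mulVec, dotProduct, Fin.sum_univ_two, h1]
    · simp [Matrix.mulVec, dotProduct, Fin.sum_univ_two, h1]
  · refine ⟨!![x 0 / v 0, 0; x 1 / v 0, 0], ?_⟩
    funext i
    fin_cases i
    · simp [Matrix.mulVec, dotProduct, Fin.sum_univ_two, h0]
    · simp [Matrix.mulVec, dotProduct, Fin.sum_univ_two, h0]

end Fermat.Agent.S56.F.Ord
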