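/-
S56 F-C, leaf `C1a`: linear algebra.  The generalised eigenspace `E0` of `τ` on `(k[ε])²` is `k[ε] (v + ε X v)`.
-/
import Fermat.Agent.S56.F.Ord.Wdg

set_option autoImplicit false

open Fermat.Agent.PT.Local Matrix
open Fermat.Agent.S53 (G M2)
open Fermat.Agent.S56.C (ad rm)

namespace Fermat.Agent.S56.F.Ord

variable {k : Type} [Field k]

/-- **(C1a).**  `R := rm r τ`, `μ := (m : k) ≠ 0, 1`, `det R = μ`, `T := actE r c τ`, `E0 = ker (T - m)^4 ⊇ (T - 1) E`.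
PROOF.  (a) if an additive `A : E2 k →+ E2 k` commutes with `T` then `A E0 ⊆ E0` (`h1`, `Function.Commute.iterate_right`/induction); apply to `A = a • ·`
(`actE_smul`) and `A = epsE` (`actE_epsE`).   (b) `(T - m)^[j] (0, y) = (0, (R - μ)^j y)`.
(c) `R ≠ 1` (`det`), pick `w` with `v₁ := R w - w ≠ 0`; `(0, v₁) = T (0,w) - (0,w) ∈ E0`, so `(R - μ)^4 v₁ = 0`, so `det (R - μ) = 0`, i.e.
`μ (1 + μ - tr R) = 0`, `tr R = μ + 1`; Cayley-Hamilton for `2 × 2` (direct computation): `(R - μ)(R - 1) = 0 = (R - 1)(R - μ)`.  Hence `R v₁ = μ v₁`: first claim.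
(d) `v ≠ 0`, `R v = μ v`.  If `(0, y) ∈ E0`: `u := (R - μ) y` has `R u = u`, so `0 = (R-μ)^4 y = (1-μ)^3 u`, `u = 0`, `R y = μ y`, `y ∈ k v` (`eigen_unique`, `μ² ≠ μ`).
Conversely `(0, β v) ∈ E0`.   (e) `(x₀, x₁) ∈ E0 ⟹ (0, x₀) = epsE (x₀,x₁) ∈ E0 ⟹ x₀ ∈ k v`.
(f) `v₁ = λ v`, `λ ≠ 0` (`eigen_unique`); `T (w, 0) - (w, 0) = (λ v, *) ∈ E0`; scale by `λ⁻¹`: `(v, x₁) ∈ E0`.   (g) `X v = x₁` (`exists_matrix_mulVec`).
(h) `E0 = {(α v, α X v + β v)}`. -/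
theorem C1a (r : G →* GL (Fin 2) k) (c : G → M2 k) (τ : G) (m : ℕ) (hm0 : (m : k) ≠ 0) (hm1 : (m : k) ≠ 1)
    (hdet : (rm r τ).det = (m : k)) (E0 : AddSubgroup (E2 k))
    (h1 : ∀ x, x ∈ E0 ↔ (fun y => actE r c τ y - m • y)^[4] x = 0) (h3 : ∀ x, actE r c τ x - x ∈ E0) :
    (∃ v : Fin 2 → k, v ≠ 0 ∧ rm r τ *ᵥ v = (m : k) • v) ∧
    ∀ v : Fin 2 → k, v ≠ 0 → rm r τ *ᵥ v = (m : k) • v →
      ∃ X : M2 k, ∀ x : E2 k, x ∈ E0 ↔ ∃ α β : k, x = (α • v, α • (X *ᵥ v) + β • v) := by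
  have hmem : ∀ x, x ∈ E0 ↔
      (fun y => actE r c τ y - m • y) ((fun y => actE r c τ y - m • y)
        ((fun y => actE r c τ y - m • y) ((fun y => actE r c τ y - m • y) x))) = 0 := fun x => h1 x
  generalize hN : (fun y : E2 k => actE r c τ y - m • y) = N at hmem
  have hNa : ∀ y, N y = actE r c τ y - m • y := fun y => by rw [← hN]
  -- (a)
  have hcomm : ∀ A : E2 k → E2 k, A 0 = 0 → (∀ y, A (N y) = N (A y)) → ∀ x ∈ E0, A x ∈ E0 := by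
    intro A hA0 hA x hx
    rw [hmem] at hx ⊢
    rw [← hA, ← hA, ← hA, ← hA, hx, hA0]
  have hsmul : ∀ (a : k) (x : E2 k), x ∈ E0 → a • x ∈ E0 := by
    intro a x hx
    refine hcomm (fun y => a • y) (smul_zero a) (fun y => ?_) x hx
    show a • N y = N (a • y)
    rw [hNa, hNa, smul_sub, actE_smul, smul_comm]
  have heps : ∀ x ∈ E0, epsE x ∈ E0 := by
    intro x hx
    refine hcomm epsE (map_zero _) (fun y => ?_) x hx
    rw [hNa, hNa, map_sub, map_nsmul, actE_epsE]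
  -- (b)
  obtain ⟨n, hn⟩ : ∃ n : (Fin 2 → k) → (Fin 2 → k), ∀ y, n y = rm r τ *ᵥ y - (m : k) • y :=
    ⟨_, fun _ => rfl⟩
  have hN2 : ∀ y : Fin 2 → k, N (0, y) = (0, n y) := by
    intro y
    rw [hNa, hn]
    refine Prod.ext ?_ ?_
    · simp
    · simp [Nat.cast_smul_eq_nsmul]
  have hmem0 : ∀ y : Fin 2 → k, ((0 : Fin 2 → k), y) ∈ E0 ↔ n (n (n (n y))) = 0 := by
    intro y
    rw [hmem, hN2, hN2, hN2, hN2, Prod.mk_eq_zero]
    simp
  have hker : ∀ u, n u = 0 → rm r τ *ᵥ u = (m : k) • u := fun u hu => by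
    rw [hn] at hu
    exact sub_eq_zero.mp hu
  -- (c)
  have hex : ∃ v : Fin 2 → k, v ≠ 0 ∧ rm r τ *ᵥ v = (m : k) • v := by
    obtain ⟨w, hw⟩ : ∃ w : Fin 2 → k, rm r τ *ᵥ w - w ≠ 0 := by
      by_contra hcon
      push Not at hcon
      have h2 := wdg_mulVec (rm r τ) ![1, 0] ![0, 1]
      rw [sub_eq_zero.mp (hcon _), sub_eq_zero.mp (hcon _), hdet] at h2
      have h4 : wdg (![1, 0] : Fin 2 → k) ![0, 1] = 1 := by simp [wdg]
      rw [h4, mul_one] at h2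
      exact hm1 h2.symm
    have h0 : ((0 : Fin 2 → k), rm r τ *ᵥ w - w) ∈ E0 := by
      have h4 := h3 (0, w)
      have h5 : actE r c τ (0, w) - (0, w) = ((0 : Fin 2 → k), rm r τ *ᵥ w - w) := by
        refine Prod.ext ?_ ?_ <;> simp
      rwa [h5] at h4
    rw [hmem0] at h0
    by_cases c1 : n (rm r τ *ᵥ w - w) = 0
    · exact ⟨_, hw, hker _ c1⟩
    by_cases c2 : n (n (rm r τ *ᵥ w - w)) = 0
    · exact ⟨_, c1, hker _ c2⟩
    by_cases c3 : n (n (n (rm r τ *ᵥ w - w))) = 0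
    · exact ⟨_, c2, hker _ c3⟩
    · exact ⟨_, c3, hker _ h0⟩
  refine ⟨hex, fun v hv hRv => ?_⟩
  have hμ1 : (m : k) - 1 ≠ 0 := sub_ne_zero.mpr hm1
  have h1μ : 1 - (m : k) ≠ 0 := sub_ne_zero.mpr (Ne.symm hm1)
  -- (d)
  have hwn : ∀ y, wdg v (n y) = (1 - (m : k)) * wdg v y := by
    intro y
    obtain ⟨a, ha⟩ := quot_eigen hv hm0 hRv y
    rw [hdet, div_self hm0, one_smul] at ha
    have h4 : rm r τ *ᵥ y = y + a • v := by
      rw [← ha]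
      exact (add_sub_cancel _ _).symm
    rw [hn, h4, wdg_sub_right, wdg_add_right, wdg_smul_right, wdg_smul_right, wdg_self]
    ring
  have hn0 : n 0 = 0 := by
    rw [hn]
    simp
  have hd : ∀ y : Fin 2 → k, ((0 : Fin 2 → k), y) ∈ E0 ↔ ∃ β : k, y = β • v := by
    intro y
    rw [hmem0]
    constructor
    · intro h
      have h2 : wdg v (n (n (n (n y)))) = 0 := by
        rw [h]
        simp [wdg]
      rw [hwn, hwn, hwn, hwn] at h2
      have h4 : wdg v y = 0 := by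
        simpa [h1μ] using h2
      exact (wdg_eq_zero_iff hv y).mp h4
    · rintro ⟨β, rfl⟩
      have h4 : n (β • v) = 0 := by
        rw [hn, Matrix.mulVec_smul, hRv, smul_comm, sub_self]
      rw [h4, hn0, hn0, hn0]
  -- (f), (g)
  refine ⟨((m : k) - 1)⁻¹ • (c τ * rm r τ), fun x => ?_⟩
  have hbase : (v, (((m : k) - 1)⁻¹ • (c τ * rm r τ)) *ᵥ v) ∈ E0 := by
    have h4 := hsmul ((m : k) - 1)⁻¹ _ (h3 (v, 0))
    have h5 : ((m : k) - 1)⁻¹ • (actE r c τ (v, 0) - (v, 0))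
        = (v, (((m : k) - 1)⁻¹ • (c τ * rm r τ)) *ᵥ v) := by
      refine Prod.ext ?_ ?_
      · show ((m : k) - 1)⁻¹ • (rm r τ *ᵥ v - v) = v
        rw [hRv]
        have h6 : (m : k) • v - v = ((m : k) - 1) • v := by rw [sub_smul, one_smul]
        rw [h6, smul_smul, inv_mul_cancel₀ hμ1, one_smul]
      · show ((m : k) - 1)⁻¹ • (rm r τ *ᵥ 0 + (c τ * rm r τ) *ᵥ v - 0) = _
        rw [Matrix.mulVec_zero, zero_add, sub_zero, Matrix.smul_mulVec]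
    rwa [h5] at h4
  -- (h)
  constructor
  · intro hx
    obtain ⟨α, hα⟩ := (hd x.1).mp (heps x hx)
    have h5 := E0.sub_mem hx (hsmul α _ hbase)
    have h6 : x - α • (v, (((m : k) - 1)⁻¹ • (c τ * rm r τ)) *ᵥ v)
        = ((0 : Fin 2 → k), x.2 - α • ((((m : k) - 1)⁻¹ • (c τ * rm r τ)) *ᵥ v)) := by
      refine Prod.ext ?_ ?_
      · show x.1 - α • v = 0
        rw [hα, sub_self]
      · rfl
    rw [h6] at h5
    obtain ⟨β, hβ⟩ := (hd _).mp h5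
    refine ⟨α, β, Prod.ext hα ?_⟩
    show x.2 = _
    rw [← hβ]
    exact (add_sub_cancel _ _).symm
  · rintro ⟨α, β, rfl⟩
    have h7 := E0.add_mem (hsmul α _ hbase) ((hd (β • v)).mpr ⟨β, rfl⟩)
    have h8 : α • (v, (((m : k) - 1)⁻¹ • (c τ * rm r τ)) *ᵥ v) + ((0 : Fin 2 → k), β • v)
        = (α • v, α • ((((m : k) - 1)⁻¹ • (c τ * rm r τ)) *ᵥ v) + β • v) := by
      refine Prod.ext ?_ ?_
      · show α • v + 0 = α • v
        rw [add_zero]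
      · rfl
    rwa [h8] at h7

end Fermat.Agent.S56.F.Ord
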