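/-
S56 F-C, leaf `C1b`: linear algebra.  From the shape of `E0` to the normalised cocycle.
-/
import Fermat.Agent.S56.F.Ord.Wdg

set_option autoImplicit false

open Fermat.Agent.PT.Local Matrix
open Fermat.Agent.S53 (G M2)
open Fermat.Agent.S56.C (ad rm)

namespace Fermat.Agent.S56.F.Ord

variable {k : Type} [Field k]

/-- **(C1b).**  `E0 = {(α v, α X v + β v)}` is `D`-stable and `I` acts trivially on `E/E0`.  Write `R = rm r σ`, `C = c σ`, `c' σ = C + R X R⁻¹ - X`, so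
`c' σ * R = C R + R X - X R`.
* `σ ∈ D`: `σ (0, v) = (0, R v) ∈ E0 ⟹ R v = a v`, `a ≠ 0` (`R` invertible).  `σ (v, X v) = (R v, R X v + C R v) ∈ E0 ⟹ R X v + C R v = a X v + β v`, so
  `c' σ (R v) = β v`, `c' σ v = (β / a) v`.
* `σ ∈ I`: `σ (0, w) - (0, w) = (0, R w - w) ∈ E0 ⟹ R w - w ∈ k v`.  `σ (w, 0) - (w, 0) = (R w - w, C R w) ∈ E0`: `R w - w = α v`, `C R w = α X v + β v`, so
  `c' σ (R w) = β v + (R (X w) - X w) ∈ k v`; `R` is surjective (`w = R (R⁻¹ w)`). -/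
theorem C1b (P : Plc) (r : G →* GL (Fin 2) k) (c : G → M2 k) {v : Fin 2 → k} (hv : v ≠ 0) (X : M2 k)
    (E0 : AddSubgroup (E2 k)) (hE0 : ∀ x : E2 k, x ∈ E0 ↔ ∃ α β : k, x = (α • v, α • (X *ᵥ v) + β • v))
    (h2 : ∀ σ ∈ P.dec, ∀ x ∈ E0, actE r c σ x ∈ E0) (h3 : ∀ σ ∈ P.ine, ∀ x, actE r c σ x - x ∈ E0) :
    OrdLine P r v ∧ NormV P v (c + cob r X) := by
  have hiR : ∀ σ : G, (((r σ)⁻¹ : GL (Fin 2) k) : M2 k) * rm r σ = 1 := fun σ => by
    rw [rm, ← Units.val_mul, inv_mul_cancel, Units.val_one]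
  have hRi : ∀ σ : G, rm r σ * (((r σ)⁻¹ : GL (Fin 2) k) : M2 k) = 1 := fun σ => by
    rw [rm, ← Units.val_mul, mul_inv_cancel, Units.val_one]
  have hc' : ∀ σ : G, (c + cob r X) σ * rm r σ = c σ * rm r σ + rm r σ * X - X * rm r σ :=
    fun σ => by
      have had : ad (r σ) X * rm r σ = rm r σ * X := by
        rw [ad, Matrix.mul_assoc, hiR, Matrix.mul_one]
        rfl
      simp only [Pi.add_apply, cob, Matrix.add_mul, Matrix.sub_mul, had]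
      abel
  have hdec : ∀ σ ∈ P.dec, ∃ x : k, rm r σ *ᵥ v = x • v := by
    intro σ hσ
    have h0 : ((0 : Fin 2 → k), v) ∈ E0 := (hE0 _).2 ⟨0, 1, by simp⟩
    obtain ⟨α, β, hαβ⟩ := (hE0 _).1 (h2 σ hσ _ h0)
    have e1 := congrArg Prod.fst hαβ
    have e2 := congrArg Prod.snd hαβ
    simp only [actE_fst, actE_snd, mulVec_zero, add_zero] at e1 e2
    have hα : α = 0 := (smul_eq_zero.mp e1.symm).resolve_right hv
    exact ⟨β, by rw [e2, hα]; simp⟩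
  have hine : ∀ σ ∈ P.ine, ∀ w : Fin 2 → k, ∃ y : k, rm r σ *ᵥ w - w = y • v := by
    intro σ hσ w
    obtain ⟨α, β, hαβ⟩ := (hE0 _).1 (h3 σ hσ ((0 : Fin 2 → k), w))
    have e1 := congrArg Prod.fst hαβ
    have e2 := congrArg Prod.snd hαβ
    simp only [Prod.fst_sub, Prod.snd_sub, actE_fst, actE_snd, mulVec_zero, add_zero,
      sub_zero] at e1 e2
    have hα : α = 0 := (smul_eq_zero.mp e1.symm).resolve_right hv
    exact ⟨β, by rw [e2, hα]; simp⟩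
  refine ⟨⟨hdec, hine⟩, ⟨?_, ?_⟩⟩
  · intro σ hσ
    obtain ⟨a, ha⟩ := hdec σ hσ
    have ha0 : a ≠ 0 := by
      rintro rfl
      apply hv
      have : (((r σ)⁻¹ : GL (Fin 2) k) : M2 k) *ᵥ (rm r σ *ᵥ v) = v := by
        rw [mulVec_mulVec, hiR, one_mulVec]
      rw [← this, ha, zero_smul, mulVec_zero]
    have h0 : (v, X *ᵥ v) ∈ E0 := (hE0 _).2 ⟨1, 0, by simp⟩
    obtain ⟨α, β, hαβ⟩ := (hE0 _).1 (h2 σ hσ _ h0)
    have e1 := congrArg Prod.fst hαβ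
    have e2 := congrArg Prod.snd hαβ
    simp only [actE_fst, actE_snd] at e1 e2
    have hα : α = a := by
      have : (α - a) • v = 0 := by rw [sub_smul, ← e1, ha, sub_self]
      exact sub_eq_zero.mp ((smul_eq_zero.mp this).resolve_right hv)
    subst hα
    have h5 : ((c + cob r X) σ * rm r σ) *ᵥ v = β • v := by
      have e3 : (X * rm r σ) *ᵥ v = α • (X *ᵥ v) := by
        rw [← mulVec_mulVec, ha, mulVec_smul]
      have e4 : (rm r σ * X) *ᵥ v = rm r σ *ᵥ (X *ᵥ v) := (mulVec_mulVec _ _ _).symm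
      rw [hc', sub_mulVec, add_mulVec, e3, e4, add_comm, e2]
      abel
    refine ⟨β / α, ?_⟩
    rw [← mulVec_mulVec, ha, mulVec_smul] at h5
    rw [div_eq_inv_mul, mul_smul, ← h5, smul_smul, inv_mul_cancel₀ ha0, one_smul]
  · intro σ hσ w
    obtain ⟨w', hw'⟩ : ∃ w' : Fin 2 → k, rm r σ *ᵥ w' = w :=
      ⟨(((r σ)⁻¹ : GL (Fin 2) k) : M2 k) *ᵥ w, by rw [mulVec_mulVec, hRi, one_mulVec]⟩
    obtain ⟨α, β, hαβ⟩ := (hE0 _).1 (h3 σ hσ (w', (0 : Fin 2 → k)))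
    have e1 := congrArg Prod.fst hαβ
    have e2 := congrArg Prod.snd hαβ
    simp only [Prod.fst_sub, Prod.snd_sub, actE_fst, actE_snd, mulVec_zero, zero_add,
      sub_zero] at e1 e2
    obtain ⟨y, hy⟩ := hine σ hσ (X *ᵥ w')
    refine ⟨β + y, ?_⟩
    have e3 : (X * rm r σ) *ᵥ w' = X *ᵥ w' + α • (X *ᵥ v) := by
      have : rm r σ *ᵥ w' = w' + α • v := by rw [← e1]; abel
      rw [← mulVec_mulVec, this, mulVec_add, mulVec_smul]
    have e4 : (rm r σ * X) *ᵥ w' = X *ᵥ w' + y • v := by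
      rw [← mulVec_mulVec, ← hy]; abel
    rw [← hw', mulVec_mulVec, hc', sub_mulVec, add_mulVec, e2, e3, e4, add_smul]
    abel

end Fermat.Agent.S56.F.Ord
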