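/-
S56 F-C, leaf `Om`: API of `IsOm p σ m` ("`σ` acts on `μ_p` by `μ ↦ μ ^ m`").  Mathlib only.
-/
import Fermat.Agent.S56.F.Ord.Defs

set_option autoImplicit false

open Fermat.Agent.PT.Local

namespace Fermat.Agent.S56.F.Ord

variable {p : ℕ} [Fact p.Prime]

/-- (`IsAlgClosed`, char 0: `HasEnoughRootsOfUnity.exists_primitiveRoot` or `IsCyclotomicExtension`..,
or a root `≠ 1` of `X^p - 1` + `IsPrimitiveRoot.orderOf`/`orderOf_eq_prime`.) -/
theorem exists_prim (p : ℕ) [Fact p.Prime] : ∃ ζ : Qb, IsPrimitiveRoot ζ p := by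
  have : NeZero p := ⟨(Fact.out : p.Prime).ne_zero⟩
  exact HasEnoughRootsOfUnity.exists_primitiveRoot Qb p

/-- every `μ` with `μ^p = 1` is `ζ^i` (`IsPrimitiveRoot.eq_pow_of_pow_eq_one`). -/
theorem isOm_iff {ζ : Qb} (hζ : IsPrimitiveRoot ζ p) (σ : GQ) (m : ℕ) : IsOm p σ m ↔ σ ζ = ζ ^ m := by
  have : NeZero p := ⟨(Fact.out : p.Prime).ne_zero⟩
  constructor
  · intro h
    exact h ζ hζ.pow_eq_one
  · intro h μ hμ
    obtain ⟨i, -, rfl⟩ := hζ.eq_pow_of_pow_eq_one hμ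
    rw [map_pow, h, ← pow_mul, ← pow_mul, mul_comm]

/-- `σ ζ` is a `p`-th root of unity. -/
theorem exists_isOm (p : ℕ) [Fact p.Prime] (σ : GQ) : ∃ m : ℕ, IsOm p σ m := by
  have : NeZero p := ⟨(Fact.out : p.Prime).ne_zero⟩
  obtain ⟨ζ, hζ⟩ := exists_prim p
  have h : (σ ζ) ^ p = 1 := by rw [← map_pow, hζ.pow_eq_one, map_one]
  obtain ⟨i, -, hi⟩ := hζ.eq_pow_of_pow_eq_one h
  exact ⟨i, (isOm_iff hζ σ i).2 hi.symm⟩

theorem IsOm.one : IsOm p 1 1 := fun μ _ => by simp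

theorem IsOm.mul {σ τ : GQ} {m n : ℕ} (h : IsOm p σ m) (h' : IsOm p τ n) : IsOm p (σ * τ) (m * n) := by
  intro μ hμ
  rw [AlgEquiv.mul_apply, h' μ hμ, map_pow, h μ hμ, ← pow_mul]

/-- `ζ^m = ζ^m'` iff `m ≡ m' mod p` (`IsPrimitiveRoot.pow_inj`/`pow_eq_pow_iff_modEq`). -/
theorem IsOm.zmod_eq {σ : GQ} {m m' : ℕ} (h : IsOm p σ m) (h' : IsOm p σ m') :
    (m : ZMod p) = (m' : ZMod p) := by
  obtain ⟨ζ, hζ⟩ := exists_prim p
  have h1 : ζ ^ m = ζ ^ m' := by rw [← h ζ hζ.pow_eq_one, ← h' ζ hζ.pow_eq_one]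
  rw [ZMod.natCast_eq_natCast_iff]
  have hp : 0 < p := (Fact.out : p.Prime).pos
  rw [pow_eq_pow_mod m hζ.pow_eq_one, pow_eq_pow_mod m' hζ.pow_eq_one] at h1
  exact hζ.pow_inj (Nat.mod_lt _ hp) (Nat.mod_lt _ hp) h1

theorem IsOm.of_zmod_eq {σ : GQ} {m m' : ℕ} (h : IsOm p σ m) (h' : (m : ZMod p) = (m' : ZMod p)) :
    IsOm p σ m' := by
  obtain ⟨ζ, hζ⟩ := exists_prim p
  rw [isOm_iff hζ] at h ⊢
  rw [h]
  rw [ZMod.natCast_eq_natCast_iff] at h'
  rw [pow_eq_pow_mod m hζ.pow_eq_one, pow_eq_pow_mod m' hζ.pow_eq_one, h']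

/-- (`CharP.natCast_eq_natCast`, `ZMod.natCast_eq_natCast_iff`.) -/
theorem IsOm.cast_eq {k : Type} [Field k] [CharP k p] {σ : GQ} {m m' : ℕ} (h : IsOm p σ m)
    (h' : IsOm p σ m') : (m : k) = (m' : k) := by
  rw [CharP.natCast_eq_natCast k p, ← ZMod.natCast_eq_natCast_iff]
  exact h.zmod_eq h'

/-- `σ ζ ≠ 1`. -/
theorem IsOm.zmod_ne_zero {σ : GQ} {m : ℕ} (h : IsOm p σ m) : (m : ZMod p) ≠ 0 := by
  obtain ⟨ζ, hζ⟩ := exists_prim p
  intro h0
  rw [ZMod.natCast_eq_zero_iff] at h0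
  obtain ⟨t, rfl⟩ := h0
  have h1 := h ζ hζ.pow_eq_one
  rw [pow_mul, hζ.pow_eq_one, one_pow] at h1
  have h2 : ζ = 1 := by
    apply σ.injective
    rw [h1, map_one]
  exact hζ.ne_one (Fact.out : p.Prime).one_lt h2

theorem IsOm.cast_ne_zero {k : Type} [Field k] [CharP k p] {σ : GQ} {m : ℕ} (h : IsOm p σ m) :
    (m : k) ≠ 0 := by
  intro h0
  apply h.zmod_ne_zero
  rw [CharP.cast_eq_zero_iff k p] at h0
  rwa [ZMod.natCast_eq_zero_iff]

/-- `(m : k) = 1 ↔ (m : ZMod p) = 1`. -/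
theorem cast_eq_one_iff (k : Type) [Field k] [CharP k p] (m : ℕ) : (m : k) = 1 ↔ (m : ZMod p) = 1 := by
  have h1 : (m : k) = 1 ↔ (m : k) = ((1 : ℕ) : k) := by rw [Nat.cast_one]
  have h2 : (m : ZMod p) = 1 ↔ (m : ZMod p) = ((1 : ℕ) : ZMod p) := by rw [Nat.cast_one]
  rw [h1, h2, CharP.natCast_eq_natCast k p, ZMod.natCast_eq_natCast_iff]

/-- `σ` fixes `ζ` iff `ω(σ) = 1`. -/
theorem isOm_one_iff {ζ : Qb} (hζ : IsPrimitiveRoot ζ p) (σ : GQ) : IsOm p σ 1 ↔ σ ζ = ζ := by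
  rw [isOm_iff hζ, pow_one]

/-- an additive map `l : k → F_p` commutes with multiplication by natural numbers. -/
theorem map_natCast_mul {k : Type} [Field k] (l : k →+ ZMod p) (m : ℕ) (x : k) :
    l ((m : k) * x) = (m : ZMod p) * l x := by
  rw [← nsmul_eq_mul, map_nsmul, nsmul_eq_mul]

/-- `x ^ p = x` in a field of characteristic `p` implies `x ∈ F_p`
(the `p` elements `(n : k)`, `n < p`, are `p` distinct roots of `X^p - X`; `Polynomial.card_roots'`; or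
`ZMod.castHom`, `FiniteField.X_pow_card_sub_X_natDegree_eq`, `Subfield`..). -/
theorem exists_natCast_of_pow_eq {k : Type} [Field k] [CharP k p] {x : k} (hx : x ^ p = x) :
    ∃ n : ℕ, x = (n : k) := by
  classical
  have hp : p.Prime := Fact.out
  let f : Polynomial k := Polynomial.X ^ p - Polynomial.X
  have hdeg : f.natDegree = p := by
    have := FiniteField.X_pow_card_sub_X_natDegree_eq k hp.one_lt
    exact this
  have hf0 : f ≠ 0 := by
    intro h0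
    rw [h0, Polynomial.natDegree_zero] at hdeg
    exact hp.ne_zero hdeg.symm
  let s : Finset k := (Finset.range p).image (fun n : ℕ => (n : k))
  have hinj : Set.InjOn (fun n : ℕ => (n : k)) (Finset.range p : Set ℕ) := by
    intro a ha b hb hab
    have h1 : (a : k) = (b : k) := hab
    rw [CharP.natCast_eq_natCast k p] at h1
    exact Nat.ModEq.eq_of_lt_of_lt h1 (Finset.mem_range.1 ha) (Finset.mem_range.1 hb)
  have hcard : s.card = p := by
    rw [Finset.card_image_of_injOn hinj, Finset.card_range]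
  have hroot : ∀ y : k, y ^ p = y → y ∈ f.roots.toFinset := by
    intro y hy
    rw [Multiset.mem_toFinset, Polynomial.mem_roots hf0]
    simp [f, Polynomial.IsRoot, hy]
  have hsub : s ⊆ f.roots.toFinset := by
    intro y hy
    obtain ⟨n, -, rfl⟩ := Finset.mem_image.1 hy
    apply hroot
    have := map_natCast (frobenius k p) n
    rwa [frobenius_def] at this
  have hle : f.roots.toFinset.card ≤ s.card := by
    rw [hcard, ← hdeg]
    exact (Multiset.toFinset_card_le _).trans (Polynomial.card_roots' f)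
  have heq : s = f.roots.toFinset := Finset.eq_of_subset_of_card_le hsub hle
  have hx' : x ∈ s := by rw [heq]; exact hroot x hx
  obtain ⟨n, -, hn⟩ := Finset.mem_image.1 hx'
  exact ⟨n, hn.symm⟩

end Fermat.Agent.S56.F.Ord
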