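/-
S56 F-C, leaf `LFX`: four small complements on local fields (on top of `S56/F/LF`, which is sorry-free).
-/
import Fermat.Agent.S56.F.Ord.Om

set_option autoImplicit false

open Fermat.Agent.PT.Local IntermediateField

namespace Fermat.Agent.S56.F.Ord

variable (P : Plc)

/-- `v(ζ - 1)^(p-1) = v(p)`.  (`LF.exists_isLam` with `e = (p-1) * 1` (`¬ p ∣ p - 1`), `LF.IsLam.v_zeta_sub_one` (`m = 1`),
`LF.IsLam.v_pow`.) -/
theorem v_zeta_sub_one_pow {ζ : Qb} (hζ : IsPrimitiveRoot ζ P.ℓ) :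
    P.v (ζ - 1) ^ (P.ℓ - 1) = P.v (P.ℓ : Qb) := by
  rw [v_p_eq P P.prime hζ, Valuation.map_sub_swap]

/-- `v(p)^a = v(p)^b → a = b` (`0 < v(p) < 1`: `v_ell_lt_one`; `zpow_right_injective₀`/`zpow_right_strictAnti₀`). -/
theorem v_ell_zpow_inj {a b : ℤ} (h : P.v (P.ℓ : Qb) ^ a = P.v (P.ℓ : Qb) ^ b) : a = b :=
  v_zpow_injective P (by exact_mod_cast P.prime.ne_zero) (v_ell_lt_one P) h

/-- **`ω` is non trivial on inertia (`p` odd).**  Otherwise `ζ - 1 ∈ Qb^I`, so `v(ζ-1) = v(p)^n` (`LF.v_of_fixed_ine`), hence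
`v(p)^(n (p-1)) = v(p)^1`, `n (p - 1) = 1`, `p = 2`. -/
theorem exists_ine_om (hp2 : P.ℓ ≠ 2) :
    ∃ τ ∈ P.ine, ∃ m : ℕ, IsOm P.ℓ τ m ∧ (m : ZMod P.ℓ) ≠ 1 := by
  haveI : Fact P.ℓ.Prime := ⟨P.prime⟩
  by_contra hcon
  push Not at hcon
  obtain ⟨ζ, hζ⟩ := exists_prim P.ℓ
  have hfix : ζ - 1 ∈ fixedField P.ine := by
    rw [IntermediateField.mem_fixedField_iff]
    intro τ hτ
    obtain ⟨m, hm⟩ := exists_isOm P.ℓ τ
    have h1 : IsOm P.ℓ τ 1 := hm.of_zmod_eq (by rw [hcon τ hτ m hm, Nat.cast_one])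
    rw [map_sub, map_one, (isOm_one_iff hζ τ).1 h1]
  have hne : ζ - 1 ≠ 0 := sub_ne_zero.2 (hζ.ne_one P.prime.one_lt)
  obtain ⟨n, hn⟩ := LF.v_of_fixed_ine P hfix hne
  have h2 := v_zeta_sub_one_pow P hζ
  rw [hn, ← zpow_natCast, ← zpow_mul] at h2
  have h3 : n * ((P.ℓ - 1 : ℕ) : ℤ) = 1 := v_ell_zpow_inj P (by rw [h2, zpow_one])
  have h4 : ((P.ℓ - 1 : ℕ) : ℤ) ∣ 1 := Dvd.intro_left _ h3
  have h5 := Int.le_of_dvd one_pos h4
  have h6 := P.prime.two_le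
  omega

/-- **the commutator trick.**  `t = s^(-p) φ s φ⁻¹ ∈ I` has `theta a t = 1` for all `a`:
`LF.theta_mul_right`, `LF.theta_pow_right`, `LF.theta_conj_frob` (and `theta a (x⁻¹) = (theta a x)⁻¹` from `theta_mul_right`,
`theta_one_right`); `theta a t = rs (t a / a) = 1 = rs 1` and `LF.rs_eq_iff`, `LF.v_map_div`. -/
theorem tame_comm {φ : GQ} (hφ : IsFrob P P.ℓ φ) {s : GQ} (hs : s ∈ P.ine) {a : Qb} (ha : a ≠ 0) :
    InM P (((s ^ P.ℓ)⁻¹ * (φ * s * φ⁻¹)) a / a - 1) := by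
  have hsl : s ^ P.ℓ ∈ P.ine := P.ine.pow_mem hs _
  have hsli : (s ^ P.ℓ)⁻¹ ∈ P.ine := P.ine.inv_mem hsl
  have hc : φ * s * φ⁻¹ ∈ P.ine := ine_normal P hφ.1 hs
  have hinv : LF.theta P a (s ^ P.ℓ)⁻¹ * LF.theta P a (s ^ P.ℓ) = 1 := by
    rw [← LF.theta_mul_right P ha hsli hsl, inv_mul_cancel, LF.theta_one_right P a ha]
  have h1 : LF.theta P a ((s ^ P.ℓ)⁻¹ * (φ * s * φ⁻¹)) = 1 := by
    rw [LF.theta_mul_right P ha hsli hc, LF.theta_conj_frob P ha hφ hs,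
      ← LF.theta_pow_right P ha hs, hinv]
  have hv := LF.v_map_div P ha (ine_le_dec P (P.ine.mul_mem hsli hc))
  unfold LF.theta at h1
  rw [← LF.rs_one P, LF.rs_eq_iff P hv.le (by rw [map_one])] at h1
  exact h1

theorem tame_comm_mem {φ : GQ} (hφ : IsFrob P P.ℓ φ) {s : GQ} (hs : s ∈ P.ine) :
    (s ^ P.ℓ)⁻¹ * (φ * s * φ⁻¹) ∈ P.ine :=
  P.ine.mul_mem (P.ine.inv_mem (P.ine.pow_mem hs _)) (ine_normal P hφ.1 hs)

/-- **(B2), orbit form.**  If the `I`-orbit of `b ≠ 0` lies in the finite set `S` then `v(b)^d ∈ v(p)^ℤ` for some `0 < d ≤ #S`.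
(`LF.v_pow_of_fixed` with `Γ' = LF.stab P.ine b`, `d = Γ'.relIndex P.ine` = size of the orbit:
`(LF.stab P.ine b).subgroupOf P.ine = MulAction.stabilizer P.ine b`, `MulAction.index_stabilizer`, orbit `⊆ S`.) -/
theorem valZ_orbit {b : Qb} (hb : b ≠ 0) (S : Finset Qb) (hS : ∀ σ ∈ P.ine, σ b ∈ S) :
    ∃ d : ℕ, 0 < d ∧ d ≤ S.card ∧ ∃ n : ℤ, P.v b ^ d = P.v (P.ℓ : Qb) ^ n := by
  have hstab : (LF.stab P.ine b).subgroupOf P.ine = MulAction.stabilizer P.ine b := by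
    ext ⟨g, hg⟩
    rw [Subgroup.mem_subgroupOf, LF.mem_stab, MulAction.mem_stabilizer_iff]
    constructor
    · intro h; exact h.2
    · intro h; exact ⟨hg, h⟩
  have hsub : MulAction.orbit P.ine b ⊆ (S : Set Qb) := by
    rintro _ ⟨⟨g, hg⟩, rfl⟩
    exact hS g hg
  have hfin : (MulAction.orbit P.ine b).Finite := S.finite_toSet.subset hsub
  have hidx : (LF.stab P.ine b).relIndex P.ine = (MulAction.orbit P.ine b).ncard := by
    rw [Subgroup.relIndex, hstab, MulAction.index_stabilizer]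
  have hpos : 0 < (MulAction.orbit P.ine b).ncard :=
    (Set.ncard_pos hfin).2 (MulAction.nonempty_orbit b)
  have hle : (MulAction.orbit P.ine b).ncard ≤ S.card := by
    have := Set.ncard_le_ncard hsub S.finite_toSet
    rwa [Set.ncard_coe_finset] at this
  have hb' : b ∈ fixedField (LF.stab P.ine b) := by
    rw [IntermediateField.mem_fixedField_iff]
    exact fun f hf => hf.2
  obtain ⟨n, hn⟩ := LF.v_pow_of_fixed P (LF.stab_le P.ine b) (by rw [hidx]; exact hpos.ne') hb' hb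
  exact ⟨_, by rw [hidx]; exact hpos, by rw [hidx]; exact hle, n, hn⟩

end Fermat.Agent.S56.F.Ord
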