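/-
S56 F-C, leaf `OT` (Oort-Tate, order `p`): on a connected group of order `p` inertia acts by the cyclotomic character.
-/
import Fermat.Agent.S56.F.Ord.LFX

set_option autoImplicit false

open Fermat.Agent.PT.Local

namespace Fermat.Agent.S56.F.Ord

/-- **(OT).**  `X = ⟨x⟩` of order `p`, `s(x) > 0`.  Then `γ ∈ I` acts on `x` by `ω(γ)`.
PROOF. `hpX : ∀ y, p • y = 0`.  Fix `ζ` primitive (`exists_prim`).
1. `𝒟.exists_attained x` : `f0 ∈ H` equivariant, `f0 0 = 0`, `Sge x a ↔ Dv P a (f0 x)`.  `b := f0 x`.  `b ≠ 0` (`eq_zero_of_sge_zero`),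
   `v b < 1` (from `hconn`), `Sge x b`.
2. `S := (Finset.Icc 1 (p-1)).image (fun n => f0 (n • x))`, `#S ≤ p - 1`, contains the `I`-orbit of `b`:
   `σ b = f0 (act σ x)` (equivariance), `act σ x = n • x` with `p ∤ n` (`act_bijective`/injectivity, `x ≠ 0`), reduce `n` mod `p`.
3. `valZ_orbit` : `v b ^ d = v p ^ j`, `0 < d ≤ p - 1`; `j ≥ 1` because `v b ^ d < 1`; so `v b ^ (p-1) ≤ v b ^ d ≤ v p`.
4. (F2) `𝒟.sge_dv_zeta` : `v (ζ - 1) ≤ v b`; with `v_zeta_sub_one_pow`: `v p = v(ζ-1)^(p-1) ≤ v b^(p-1) ≤ v p`, so `v b = v (ζ - 1)`.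
5. `X'` is etale: `w ≠ 0 → e x w ≠ 1` (`nondeg_right`, `e_nsmul_left`, `hgen`); if `Sge' w a'`, `InM a'` then (PI) `𝒟.sge_mul_dv_zeta`:
   `v (ζ-1) ≤ v b * v a' < v b`. Contradiction.
6. `𝒟.swap.act_eq_of_etale` : `act' γ w = w`; `𝒟.act_eq_nsmul_of_act'`. -/
theorem OT (P : Plc) {X X' : Type} [AddCommGroup X] [AddCommGroup X'] [Finite X] [Finite X']
    (𝒟 : DualPair P P.ine X X') {x : X} (hx0 : x ≠ 0) (hpx : P.ℓ • x = 0)
    (hgen : ∀ y : X, ∃ n : ℕ, y = n • x) (hconn : 𝒟.Conn x) (γ : P.ine) (m : ℕ)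
    (hm : IsOm P.ℓ (γ : GQ) m) : 𝒟.act γ x = m • x := by
  classical
  have : Fact P.ℓ.Prime := ⟨P.prime⟩
  have hp1 : 1 < P.ℓ := P.prime.one_lt
  have hpX : ∀ y : X, P.ℓ • y = 0 := by
    intro y
    obtain ⟨n, rfl⟩ := hgen y
    rw [smul_comm, hpx, smul_zero]
  obtain ⟨ζ, hζ⟩ := exists_prim P.ℓ
  obtain ⟨f0, hf0H, hf0E, hf00, hS⟩ := 𝒟.exists_attained x
  set b := f0 x with hb
  have hb0 : b ≠ 0 := by
    intro h0
    exact hx0 (𝒟.eq_zero_of_sge_zero ((hS 0).2 (by rw [h0]; exact Dv.refl P 0)))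
  have hvb0 : 0 < P.v b := zero_lt_iff.mpr ((Valuation.ne_zero_iff _).mpr hb0)
  have hb1 : P.v b < 1 := by
    obtain ⟨a, ha, hxa⟩ := hconn
    exact lt_of_le_of_lt ((hS a).1 hxa) ha
  have hSb : 𝒟.Sge x b := (hS b).2 (Dv.refl P b)
  -- the orbit
  have horb : ∀ σ ∈ P.ine, σ b ∈ (Finset.Icc 1 (P.ℓ - 1)).image (fun n : ℕ => f0 (n • x)) := by
    intro σ hσ
    have h1 : f0 (𝒟.act ⟨σ, hσ⟩ x) = σ b := hf0E ⟨σ, hσ⟩ x
    obtain ⟨n, hn⟩ := hgen (𝒟.act ⟨σ, hσ⟩ x)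
    have h2 : n • x = (n % P.ℓ) • x := by
      conv_lhs => rw [← Nat.div_add_mod n P.ℓ]
      rw [add_smul, mul_smul, hpX, zero_add]
    have h3 : n % P.ℓ ≠ 0 := by
      intro h0
      rw [h2, h0, zero_smul] at hn
      exact hx0 ((𝒟.act_bijective ⟨σ, hσ⟩).1 (by rw [hn, map_zero]))
    rw [Finset.mem_image]
    refine ⟨n % P.ℓ, Finset.mem_Icc.2 ⟨Nat.pos_of_ne_zero h3, ?_⟩, ?_⟩
    · have := Nat.mod_lt n P.prime.pos
      omega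
    · show f0 ((n % P.ℓ) • x) = σ b
      rw [← h2, ← hn, h1]
  obtain ⟨d, hd0, hdS, j, hj⟩ := valZ_orbit P hb0 _ horb
  have hdp : d ≤ P.ℓ - 1 := by
    refine le_trans hdS (le_trans Finset.card_image_le ?_)
    simp
  set π := P.v (P.ℓ : Qb) with hπ
  have hπ0 : 0 < π := zero_lt_iff.2 (v_ell_ne_zero P)
  have hπ1 : π < 1 := v_ell_lt_one P
  have hj1 : 1 ≤ j := by
    have h1 : π ^ j < π ^ (0 : ℤ) := by
      rw [← hj, zpow_zero]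
      exact pow_lt_one₀ hvb0.le hb1 hd0.ne'
    have h2 := (zpow_lt_zpow_iff_right_of_lt_one₀ hπ0 hπ1).1 h1
    omega
  have h3 : P.v b ^ (P.ℓ - 1) ≤ π := by
    calc P.v b ^ (P.ℓ - 1) ≤ P.v b ^ d := pow_le_pow_of_le_one hvb0.le hb1.le hdp
      _ = π ^ j := hj
      _ ≤ π ^ (1 : ℤ) := (zpow_le_zpow_iff_right_of_lt_one₀ hπ0 hπ1).2 hj1
      _ = π := zpow_one _
  have hζ1 : ζ ^ P.ℓ = 1 := hζ.pow_eq_one
  have hζne : ζ ≠ 1 := hζ.ne_one hp1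
  have h4 : P.v (ζ - 1) ≤ P.v b := 𝒟.sge_dv_zeta hpX hx0 hSb hζ1 hζne
  have h5 : P.v b = P.v (ζ - 1) := by
    have h6 : P.v b ^ (P.ℓ - 1) = P.v (ζ - 1) ^ (P.ℓ - 1) := by
      apply le_antisymm
      · rw [v_zeta_sub_one_pow P hζ]
        exact h3
      · exact pow_le_pow_left₀ zero_le h4 _
    exact (pow_left_inj₀ zero_le zero_le (by omega)).1 h6
  -- `X'` is etale
  have het : ∀ w, 𝒟.swap.Conn w → w = 0 := by
    rintro w ⟨a', ha', hw⟩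
    by_contra hw0
    have hxw : 𝒟.e x w ≠ 1 := by
      intro h1
      apply hw0
      apply 𝒟.nondeg_right
      intro y
      obtain ⟨n, rfl⟩ := hgen y
      rw [𝒟.e_nsmul_left, h1, one_pow]
    have h6 : P.v (ζ - 1) ≤ P.v (b * a') := 𝒟.sge_mul_dv_zeta hpX hxw hSb hw hζ1 hζne
    rw [map_mul, ← h5] at h6
    have h7 : P.v b * P.v a' < P.v b * 1 := mul_lt_mul_of_pos_left ha' hvb0
    rw [mul_one] at h7
    exact absurd h6 (not_le.2 h7)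
  have h' : ∀ w, 𝒟.act' γ w = w := fun w => 𝒟.swap.act_eq_of_etale het γ γ.2 w
  exact 𝒟.act_eq_nsmul_of_act' hpX γ h' m hm x

end Fermat.Agent.S56.F.Ord
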