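/-
S56 F-C, leaf `OTRel`: (OT) for a subquotient of order `p`.
-/
import Fermat.Agent.S56.F.Ord.OT

set_option autoImplicit false

open Fermat.Agent.PT.Local

namespace Fermat.Agent.S56.F.Ord

/-- **(OT), relative form.**  `C₁` an `I`-stable subgroup, `x` a connected point on which `I` acts by scalars modulo `C₁`.  Then it acts by `ω`
modulo `C₁`.
PROOF. If `x ∈ C₁`: clear (`hC₁`, `C₁.nsmul_mem`).  Otherwise `C₂ := C₁ ⊔ AddSubgroup.zmultiples x` is stable (`hsc`; every element is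
`c + n • x`, `n : ℤ`, and `n` can be taken in `ℕ` since `p • x = 0`).  `𝒮 := (𝒟.sub C₂ _).quot (C₁.addSubgroupOf C₂) _` is a dual pair over `I` on
`C₂ ⧸ C₁.addSubgroupOf C₂`; `xb := mk ⟨x, _⟩ ≠ 0`, generates, `p • xb = 0`, `𝒮.Conn xb` (`sub_sge`, `quot_sge`), and
`𝒮.act γ xb = mk ⟨𝒟.act γ x, _⟩` (`quot_act`, `sub_act`).  Apply `OT` and `QuotientAddGroup.eq`. -/
theorem OT_rel (P : Plc) {X X' : Type} [AddCommGroup X] [AddCommGroup X'] [Finite X] [Finite X']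
    (𝒟 : DualPair P P.ine X X') (hpX : ∀ x : X, P.ℓ • x = 0) (C₁ : AddSubgroup X) (hC₁ : 𝒟.Stable C₁)
    {x : X} (hx : 𝒟.Conn x) (hsc : ∀ γ : P.ine, ∃ n : ℕ, 𝒟.act γ x - n • x ∈ C₁) (γ : P.ine) (m : ℕ)
    (hm : IsOm P.ℓ (γ : GQ) m) : 𝒟.act γ x - m • x ∈ C₁ := by
  by_cases hxC : x ∈ C₁
  · exact C₁.sub_mem (hC₁ γ x hxC) (C₁.nsmul_mem hxC m)
  set C₂ : AddSubgroup X := C₁ ⊔ AddSubgroup.zmultiples x with hC₂
  have hx2 : x ∈ C₂ := AddSubgroup.mem_sup_right (AddSubgroup.mem_zmultiples x)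
  have h12 : C₁ ≤ C₂ := le_sup_left
  have hC₂s : 𝒟.Stable C₂ := by
    intro δ y hy
    obtain ⟨c, hc, z, hz, rfl⟩ := AddSubgroup.mem_sup.mp hy
    obtain ⟨k, rfl⟩ := AddSubgroup.mem_zmultiples_iff.mp hz
    rw [map_add, map_zsmul]
    obtain ⟨n, hn⟩ := hsc δ
    have h1 : 𝒟.act δ x ∈ C₂ := by
      have h2 : 𝒟.act δ x = (𝒟.act δ x - n • x) + n • x := by abel
      rw [h2]
      exact C₂.add_mem (h12 hn) (C₂.nsmul_mem hx2 n)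
    exact C₂.add_mem (h12 (hC₁ δ c hc)) (C₂.zsmul_mem h1 k)
  have hNs : (𝒟.sub C₂ hC₂s).Stable (C₁.addSubgroupOf C₂) := by
    intro δ y hy
    rw [AddSubgroup.mem_addSubgroupOf] at hy ⊢
    rw [𝒟.sub_act]
    exact hC₁ δ _ hy
  have hxb0 : (QuotientAddGroup.mk (⟨x, hx2⟩ : C₂) : C₂ ⧸ C₁.addSubgroupOf C₂) ≠ 0 := by
    intro h
    rw [QuotientAddGroup.eq_zero_iff] at h
    exact hxC (AddSubgroup.mem_addSubgroupOf.mp h)
  have hpxb : P.ℓ • (QuotientAddGroup.mk (⟨x, hx2⟩ : C₂) : C₂ ⧸ C₁.addSubgroupOf C₂) = 0 := by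
    rw [← QuotientAddGroup.mk_nsmul]
    have h1 : P.ℓ • (⟨x, hx2⟩ : C₂) = 0 := Subtype.ext (hpX x)
    rw [h1, QuotientAddGroup.mk_zero]
  have hgen : ∀ y : C₂ ⧸ C₁.addSubgroupOf C₂,
      ∃ n : ℕ, y = n • (QuotientAddGroup.mk (⟨x, hx2⟩ : C₂) : C₂ ⧸ C₁.addSubgroupOf C₂) := by
    intro y
    obtain ⟨⟨y, hy⟩, rfl⟩ := QuotientAddGroup.mk_surjective y
    obtain ⟨c, hc, z, hz, rfl⟩ := AddSubgroup.mem_sup.mp hy
    obtain ⟨k, rfl⟩ := AddSubgroup.mem_zmultiples_iff.mp hz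
    have hp0 : (P.ℓ : ℤ) ≠ 0 := by exact_mod_cast P.prime.ne_zero
    have hk0 : 0 ≤ k % (P.ℓ : ℤ) := Int.emod_nonneg k hp0
    refine ⟨(k % (P.ℓ : ℤ)).toNat, ?_⟩
    have h1 : k • x = (k % (P.ℓ : ℤ)).toNat • x := by
      have h2 : ((k % (P.ℓ : ℤ)).toNat : ℤ) = k % (P.ℓ : ℤ) := Int.toNat_of_nonneg hk0
      rw [← natCast_zsmul, h2]
      conv_lhs => rw [← Int.emod_add_mul_ediv k (P.ℓ : ℤ)]
      rw [add_zsmul, mul_comm, mul_zsmul, natCast_zsmul, hpX x, zsmul_zero, add_zero]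
    rw [← QuotientAddGroup.mk_nsmul, QuotientAddGroup.eq, AddSubgroup.mem_addSubgroupOf]
    show -(c + k • x) + (k % (P.ℓ : ℤ)).toNat • x ∈ C₁
    rw [← h1]
    have h3 : -(c + k • x) + k • x = -c := by abel
    rw [h3]
    exact C₁.neg_mem hc
  have hconn : ((𝒟.sub C₂ hC₂s).quot (C₁.addSubgroupOf C₂) hNs).Conn
      (QuotientAddGroup.mk (⟨x, hx2⟩ : C₂)) := by
    obtain ⟨a, ha, hs⟩ := hx
    exact ⟨a, ha, (𝒟.sub C₂ hC₂s).quot_sge _ hNs _ a ((𝒟.sub_sge C₂ hC₂s ⟨x, hx2⟩ a).mpr hs)⟩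
  have key := OT P ((𝒟.sub C₂ hC₂s).quot (C₁.addSubgroupOf C₂) hNs) hxb0 hpxb hgen hconn γ m hm
  rw [DualPair.quot_act, ← QuotientAddGroup.mk_nsmul, eq_comm, QuotientAddGroup.eq,
    AddSubgroup.mem_addSubgroupOf] at key
  have h4 : ((-(m • (⟨x, hx2⟩ : C₂)) + (𝒟.sub C₂ hC₂s).act γ ⟨x, hx2⟩ : C₂) : X)
      = 𝒟.act γ x - m • x := by
    rw [AddSubgroup.coe_add, 𝒟.sub_act]
    show -(m • x) + 𝒟.act γ x = _
    abel
  rw [h4] at key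
  exact key

end Fermat.Agent.S56.F.Ord
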