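/-
S56 F-C, leaf `CE` (connected-etale sequence): the connected part is a generalised eigenspace of any `τ ∈ I` with `ω(τ) ≠ 1`.
-/
import Fermat.Agent.S56.F.Ord.OTRel

set_option autoImplicit false

open Fermat.Agent.PT.Local

namespace Fermat.Agent.S56.F.Ord

variable {P : Plc} {X X' : Type} [AddCommGroup X] [AddCommGroup X'] [Finite X] [Finite X']

/-- **(CE1).**  `M 0 = 0 ⊆ M 1 ⊆ ..` an `I`-stable chain on whose graded pieces `I` acts by scalars in `F_p`.  On the connected points of `M j` the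
operator `γ - ω(γ)` is nilpotent of exponent `j`.
PROOF. Induction on `j`.  `x ∈ M (j+1)` connected: `y := act γ x - m • x ∈ M j` by `OT_rel` (`C₁ = M j`), and `y` is connected
(`𝒟.conn` is a subgroup, stable: `𝒟.stable_conn (ine_le_dec P)`); `Function.iterate_succ_apply`. -/
theorem CE1 (𝒟 : DualPair P P.ine X X') (hpX : ∀ x : X, P.ℓ • x = 0) (M : ℕ → AddSubgroup X)
    (hM0 : M 0 = ⊥) (hst : ∀ j, 𝒟.Stable (M j))
    (hsc : ∀ (j : ℕ) (γ : P.ine), ∃ n : ℕ, ∀ x ∈ M (j + 1), 𝒟.act γ x - n • x ∈ M j)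
    (γ : P.ine) (m : ℕ) (hm : IsOm P.ℓ (γ : GQ) m) (j : ℕ) (x : X) (hx : x ∈ M j) (hc : 𝒟.Conn x) :
    (fun y => 𝒟.act γ y - m • y)^[j] x = 0 := by
  induction j generalizing x with
  | zero =>
    rw [hM0, AddSubgroup.mem_bot] at hx
    rw [Function.iterate_zero, id, hx]
  | succ j ih =>
    rw [Function.iterate_succ_apply]
    have hy : 𝒟.act γ x - m • x ∈ M j :=
      OT_rel P 𝒟 hpX (M j) (hst j) hc (fun γ' => by
        obtain ⟨n, hn⟩ := hsc j γ'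
        exact ⟨n, hn x hx⟩) γ m hm
    have hyc : 𝒟.act γ x - m • x ∈ 𝒟.conn :=
      𝒟.conn.sub_mem (𝒟.stable_conn (ine_le_dec P) γ x hc) (𝒟.conn.nsmul_mem hc m)
    exact ih _ hy hyc

theorem CE_iterate_sub_mem (𝒟 : DualPair P P.ine X X') (τ : P.ine) (m : ℕ) (N : ℕ) : ∀ x : X,
    (fun y => 𝒟.act τ y - m • y)^[N] x - ((1 - (m : ℤ)) ^ N) • x ∈ 𝒟.conn := by
  induction N with
  | zero =>
    intro x
    rw [Function.iterate_zero, id, pow_zero, one_smul, sub_self]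
    exact 𝒟.conn.zero_mem
  | succ N ih =>
    intro x
    rw [Function.iterate_succ_apply]
    have h1 := ih (𝒟.act τ x - m • x)
    have h2 : 𝒟.act τ x - x ∈ 𝒟.conn := 𝒟.conn_act_sub τ τ.2 x
    have h3 := 𝒟.conn.zsmul_mem h2 ((1 - (m : ℤ)) ^ N)
    have h4 := 𝒟.conn.add_mem h1 h3
    have h5 : ((1 - (m : ℤ)) ^ (N + 1)) • x =
        ((1 - (m : ℤ)) ^ N) • (𝒟.act τ x - m • x) - ((1 - (m : ℤ)) ^ N) • (𝒟.act τ x - x) := by
      rw [pow_succ, mul_smul, sub_smul, one_smul, natCast_zsmul, ← smul_sub]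
      congr 1
      abel
    rw [h5]
    convert h4 using 1
    abel

/-- Conversely: modulo the connected part `τ` acts trivially (`𝒟.conn_act_sub`), so `(τ - m)^N x ≡ (1 - m)^N x`; precisely, by induction on `N`:
`(τ - m)^[N] x - (1 - m)^N • x ∈ 𝒟.conn` (`(1 - m : ℤ)^N • x`).  If `(τ - m)^[N] x = 0` then `(1-m)^N • x ∈ conn`, and `(1 - m)^N` is prime to `p`
(`hm1`), `p • x = 0`: Bezout (`Int.isCoprime_iff_gcd_eq_one`, `IsCoprime`) gives `x ∈ conn`. -/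
theorem conn_of_iterate (𝒟 : DualPair P P.ine X X') (hpX : ∀ x : X, P.ℓ • x = 0) (τ : P.ine) (m : ℕ)
    (hm1 : (m : ZMod P.ℓ) ≠ 1) (N : ℕ) (x : X) (h : (fun y => 𝒟.act τ y - m • y)^[N] x = 0) :
    𝒟.Conn x := by
  have h1 := CE_iterate_sub_mem 𝒟 τ m N x
  rw [h, zero_sub] at h1
  have h2 : ((1 - (m : ℤ)) ^ N) • x ∈ 𝒟.conn := by
    have := 𝒟.conn.neg_mem h1
    rwa [neg_neg] at this
  have hnd : ¬ (P.ℓ : ℤ) ∣ (1 - (m : ℤ)) := by
    intro hd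
    apply hm1
    have h3 := (ZMod.intCast_zmod_eq_zero_iff_dvd (1 - (m : ℤ)) P.ℓ).2 hd
    push_cast at h3
    exact (sub_eq_zero.1 h3).symm
  have hcop : IsCoprime (P.ℓ : ℤ) ((1 - (m : ℤ)) ^ N) :=
    ((Prime.coprime_iff_not_dvd (Nat.prime_iff_prime_int.mp P.prime)).mpr hnd).pow_right
  obtain ⟨u, w, huw⟩ := hcop
  have h4 : x = w • (((1 - (m : ℤ)) ^ N) • x) := by
    conv_lhs => rw [← one_smul ℤ x, ← huw, add_smul, mul_smul, mul_smul, natCast_zsmul, hpX x,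
      smul_zero, zero_add]
  show x ∈ 𝒟.conn
  rw [h4]
  exact 𝒟.conn.zsmul_mem h2 w

/-- **(CE).** -/
theorem conn_iff_of_chain (𝒟 : DualPair P P.ine X X') (hpX : ∀ x : X, P.ℓ • x = 0)
    (M : ℕ → AddSubgroup X) (N : ℕ) (hM0 : M 0 = ⊥) (hMN : M N = ⊤) (hst : ∀ j, 𝒟.Stable (M j))
    (hsc : ∀ (j : ℕ) (γ : P.ine), ∃ n : ℕ, ∀ x ∈ M (j + 1), 𝒟.act γ x - n • x ∈ M j)
    (τ : P.ine) (m : ℕ) (hm : IsOm P.ℓ (τ : GQ) m) (hm1 : (m : ZMod P.ℓ) ≠ 1) (x : X) :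
    𝒟.Conn x ↔ (fun y => 𝒟.act τ y - m • y)^[N] x = 0 :=
  ⟨fun hc => CE1 𝒟 hpX M hM0 hst hsc τ m hm N x (by rw [hMN]; trivial) hc,
    fun h => conn_of_iterate 𝒟 hpX τ m hm1 N x h⟩

end Fermat.Agent.S56.F.Ord
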