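/-
S56 F-C, leaf `Tame` (TT): an element of inertia with trivial tame characters has a non zero fixed point.
-/
import Fermat.Agent.S56.F.Ord.Defs

set_option autoImplicit false

open Fermat.Agent.PT.Local

namespace Fermat.Agent.S56.F.Ord

/-- **(TT).**  `𝒟.exists_top` gives the deepest level `a ≠ 0` and `x ≠ 0` with `Sge x a`.
* If `InM P a`: `𝒟.aeval_act_eq_zero_of_top hΓ ha ha1 htop t ht hx (X - 1)` (`aeval (t a / a) (X - 1) = t a / a - 1`) gives
  `aeval (𝒟.actE t) (X - 1) x = act t x - x = 0`.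
* Otherwise `1 ≤ v a`, and `X` is etale: if `Conn y`, say `Sge y a'`, `InM a'`, put `c = a' / a` (`InM c`, `a * c = a'`), so `y = 0` by
  `htop`; then `𝒟.act_eq_of_etale`. -/
theorem exists_fixed_of_tame {P : Plc} {Γ : Subgroup GQ} (hΓ : Γ ≤ P.dec) {X X' : Type} [AddCommGroup X]
    [AddCommGroup X'] [Finite X] [Finite X'] [Nontrivial X] (𝒟 : DualPair P Γ X X') (t : Γ)
    (ht : (t : GQ) ∈ P.ine) (htame : ∀ a : Qb, a ≠ 0 → InM P ((t : GQ) a / a - 1)) :
    ∃ x : X, x ≠ 0 ∧ 𝒟.act t x = x := by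
  obtain ⟨a, ha, ⟨x, hx0, hx⟩, htop⟩ := 𝒟.exists_top
  refine ⟨x, hx0, ?_⟩
  by_cases ha1 : InM P a
  · have hQ : InM P (Polynomial.aeval ((t : GQ) a / a) (Polynomial.X - 1 : Polynomial ℤ)) := by
      simpa using htame a ha
    have h := 𝒟.aeval_act_eq_zero_of_top hΓ ha ha1 htop t ht hx (Polynomial.X - 1) hQ
    have h2 : Polynomial.aeval (𝒟.actE t) (Polynomial.X - 1 : Polynomial ℤ) = 𝒟.actE t - 1 := by
      simp
    rw [h2] at h
    have h3 : (𝒟.actE t - 1) x = 𝒟.act t x - x := rfl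
    rw [h3] at h
    exact sub_eq_zero.1 h
  · apply 𝒟.act_eq_of_etale _ t ht
    rintro y ⟨a', ha', hy⟩
    apply htop y (a' / a)
    · have h1 : (1 : _) ≤ P.v a := not_lt.1 ha1
      show P.v (a' / a) < 1
      rw [map_div₀]
      have hpos : 0 < P.v a := lt_of_lt_of_le zero_lt_one h1
      rw [div_lt_one₀ hpos]
      exact lt_of_lt_of_le ha' h1
    · rwa [mul_div_cancel₀ _ ha]

end Fermat.Agent.S56.F.Ord
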