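/-
S56 F-C, leaf `Eta` (CASE R): inertia acts on the graded pieces of a `D`-stable flag by scalars in `F_p`.
-/
import Fermat.Agent.S56.F.Ord.Tame
import Fermat.Agent.S56.F.Ord.LFX
import Fermat.Agent.S56.F.Ord.Wdg

set_option autoImplicit false

open Fermat.Agent.PT.Local Matrix
open Fermat.Agent.S53 (G M2)
open Fermat.Agent.S56.C (ad rm)

namespace Fermat.Agent.S56.F.Ord

variable {k : Type} [Field k]

theorem Eta_rm_mul (r : G →* GL (Fin 2) k) (σ τ : G) : rm r (σ * τ) = rm r σ * rm r τ := by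
  simp only [rm, map_mul, Units.val_mul]

theorem Eta_rm_one (r : G →* GL (Fin 2) k) : rm r 1 = 1 := by
  simp only [rm, map_one, Units.val_one]

theorem Eta_eig_mul (r : G →* GL (Fin 2) k) {v0 : Fin 2 → k} {σ τ : G} {x y : k}
    (hσ : rm r σ *ᵥ v0 = x • v0) (hτ : rm r τ *ᵥ v0 = y • v0) :
    rm r (σ * τ) *ᵥ v0 = (x * y) • v0 := by
  rw [Eta_rm_mul, ← mulVec_mulVec, hτ, mulVec_smul, hσ, smul_smul, mul_comm]

theorem Eta_eig_one (r : G →* GL (Fin 2) k) (v0 : Fin 2 → k) : rm r 1 *ᵥ v0 = (1 : k) • v0 := by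
  rw [Eta_rm_one, one_mulVec, one_smul]

theorem Eta_eig_pow (r : G →* GL (Fin 2) k) {v0 : Fin 2 → k} {σ : G} {x : k}
    (hσ : rm r σ *ᵥ v0 = x • v0) (n : ℕ) : rm r (σ ^ n) *ᵥ v0 = (x ^ n) • v0 := by
  induction n with
  | zero => rw [pow_zero, pow_zero]; exact Eta_eig_one r v0
  | succ n ih => rw [pow_succ, pow_succ]; exact Eta_eig_mul r ih hσ

theorem Eta_eig_ne_zero (r : G →* GL (Fin 2) k) {v0 : Fin 2 → k} (hv0 : v0 ≠ 0) {σ : G} {x : k}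
    (hσ : rm r σ *ᵥ v0 = x • v0) : x ≠ 0 := by
  rintro rfl
  apply hv0
  have h1 : rm r (σ⁻¹ * σ) *ᵥ v0 = 0 := by
    rw [Eta_rm_mul, ← mulVec_mulVec, hσ, zero_smul, mulVec_zero]
  rwa [inv_mul_cancel, Eta_rm_one, one_mulVec] at h1

theorem Eta_eig_inv (r : G →* GL (Fin 2) k) {v0 : Fin 2 → k} (hv0 : v0 ≠ 0) {σ : G} {x : k}
    (hσ : rm r σ *ᵥ v0 = x • v0) : rm r σ⁻¹ *ᵥ v0 = x⁻¹ • v0 := by
  have hx : x ≠ 0 := Eta_eig_ne_zero r hv0 hσ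
  have h1 : rm r (σ⁻¹ * σ) *ᵥ v0 = x • (rm r σ⁻¹ *ᵥ v0) := by
    rw [Eta_rm_mul, ← mulVec_mulVec, hσ, mulVec_smul]
  rw [inv_mul_cancel, Eta_rm_one, one_mulVec] at h1
  conv_rhs => rw [h1, smul_smul, inv_mul_cancel₀ hx, one_smul]

/-- the subgroup `{(0, β • v0)}` of `E2 k`. -/
def Eta_M1 (v0 : Fin 2 → k) : AddSubgroup (E2 k) where
  carrier := {y | ∃ β : k, y = (0, β • v0)}
  zero_mem' := ⟨0, by rw [zero_smul]; rfl⟩
  add_mem' := by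
    rintro _ _ ⟨β, rfl⟩ ⟨β', rfl⟩
    exact ⟨β + β', by rw [add_smul, Prod.mk_add_mk, add_zero]⟩
  neg_mem' := by
    rintro _ ⟨β, rfl⟩
    exact ⟨-β, by rw [neg_smul, Prod.neg_mk, neg_zero]⟩

/-- **the eigenvalue of `s ∈ I` on a `D`-stable line lies in `F_p`.**
PROOF. `η σ` := the eigenvalue of `r σ` on `v0` (`σ ∈ D`, choice); `η (σ τ) = η σ * η τ`, `η σ ≠ 0` (`rm r (σ τ) = rm r σ * rm r τ`, `v0 ≠ 0`, `r σ` invertible).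
`φ` a Frobenius (`LF.exists_frob_ell`), `t := (s^p)⁻¹ * (φ * s * φ⁻¹) ∈ I` (`tame_comm_mem`), `η t = x^(-p) x`.
`M₁ := {(0, β • v0)}` is a `D`-stable subgroup of `E2 k` (`hact`, `actE_snd`), non trivial; `𝒮 := 𝒟.sub M₁ _`; `exists_fixed_of_tame le_rfl 𝒮 ⟨t, _⟩ _ (tame_comm ..)`
gives `(0, β • v0) ≠ 0` fixed by `t` (`sub_act`), so `η t = 1`, `x ^ p = x`; `exists_natCast_of_pow_eq`. -/
theorem eta_natCast (P : Plc) [Finite k] [CharP k P.ℓ] (r : G →* GL (Fin 2) k) (c : G → M2 k) {X' : Type}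
    [AddCommGroup X'] [Finite X'] (𝒟 : DualPair P P.dec (E2 k) X')
    (hact : ∀ (γ : P.dec) (x : E2 k), 𝒟.act γ x = actE r c γ x) {v0 : Fin 2 → k} (hv0 : v0 ≠ 0)
    (hst : ∀ σ ∈ P.dec, ∃ x : k, rm r σ *ᵥ v0 = x • v0) {s : GQ} (hs : s ∈ P.ine) {x : k}
    (hx : rm r s *ᵥ v0 = x • v0) : ∃ n : ℕ, x = (n : k) := by
  have : Fact P.ℓ.Prime := ⟨P.prime⟩
  obtain ⟨φ, hφ⟩ := LF.exists_frob_ell P
  obtain ⟨a, ha⟩ := hst φ hφ.1
  have ha0 : a ≠ 0 := Eta_eig_ne_zero r hv0 ha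
  have hx0 : x ≠ 0 := Eta_eig_ne_zero r hv0 hx
  have ht : (s ^ P.ℓ)⁻¹ * (φ * s * φ⁻¹) ∈ P.ine := tame_comm_mem P hφ hs
  have heig : rm r ((s ^ P.ℓ)⁻¹ * (φ * s * φ⁻¹)) *ᵥ v0 = ((x ^ P.ℓ)⁻¹ * x) • v0 := by
    have h1 := Eta_eig_mul r (Eta_eig_inv r hv0 (Eta_eig_pow r hx P.ℓ))
      (Eta_eig_mul r (Eta_eig_mul r ha hx) (Eta_eig_inv r hv0 ha))
    rw [h1]
    congr 1
    field_simp
  have hstab : 𝒟.Stable (Eta_M1 v0) := by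
    rintro γ _ ⟨β, rfl⟩
    obtain ⟨z, hz⟩ := hst γ γ.2
    refine ⟨β * z, ?_⟩
    rw [hact]
    refine Prod.ext ?_ ?_
    · rw [actE_fst]
      exact mulVec_zero _
    · rw [actE_snd]
      show rm r γ *ᵥ (β • v0) + (c γ * rm r γ) *ᵥ 0 = (β * z) • v0
      rw [mulVec_zero, add_zero, mulVec_smul, hz, smul_smul]
  have hnt : Nontrivial (Eta_M1 v0) := by
    refine ⟨⟨⟨(0, v0), ⟨1, by rw [one_smul]⟩⟩, 0, ?_⟩⟩
    intro h
    apply hv0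
    have h2 := congrArg (fun y : Eta_M1 v0 => (y : E2 k).2) h
    exact h2
  obtain ⟨y, hy0, hy⟩ := exists_fixed_of_tame le_rfl (𝒟.sub (Eta_M1 v0) hstab)
    ⟨(s ^ P.ℓ)⁻¹ * (φ * s * φ⁻¹), ine_le_dec P ht⟩ ht (fun a ha => tame_comm P hφ hs ha)
  obtain ⟨⟨y1, y2⟩, β, hβ⟩ := y
  have hβ1 : y1 = 0 := (Prod.ext_iff.1 hβ).1
  have hβ2 : y2 = β • v0 := (Prod.ext_iff.1 hβ).2
  subst hβ1
  subst hβ2
  have hβ0 : β ≠ 0 := by
    rintro rfl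
    apply hy0
    apply Subtype.ext
    show ((0 : Fin 2 → k), (0 : k) • v0) = 0
    rw [zero_smul]
    rfl
  have h1 := congrArg (fun y : Eta_M1 v0 => (y : E2 k).2) hy
  simp only [DualPair.sub_act, hact, actE_snd] at h1
  rw [mulVec_zero, add_zero, mulVec_smul, heig] at h1
  have h2 : ((x ^ P.ℓ)⁻¹ * x) • v0 = (1 : k) • v0 := by
    rw [one_smul]
    have h3 := congrArg (fun w => β⁻¹ • w) h1
    simp only [smul_smul, inv_mul_cancel₀ hβ0] at h3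
    rw [← mul_assoc, inv_mul_cancel₀ hβ0, one_mul, one_smul] at h3
    exact h3
  have h3 : (x ^ P.ℓ)⁻¹ * x = 1 := by
    by_contra hne
    apply hv0
    have h4 : ((x ^ P.ℓ)⁻¹ * x - 1) • v0 = 0 := by rw [sub_smul, h2, sub_self]
    exact (smul_eq_zero.1 h4).resolve_left (sub_ne_zero.2 hne)
  apply exists_natCast_of_pow_eq (p := P.ℓ)
  have h4 : x ^ P.ℓ ≠ 0 := pow_ne_zero _ hx0
  field_simp at h3
  exact h3.symm

/-- both graded pieces: `n₁` from `eta_natCast`; `det (r s) = m` (`exists_isOm`, `hdet`), the scalar on the quotient is `m / n₁ ∈ F_p` (`quot_eigen`);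
`n₂ := ((m : ZMod p) / (n₁ : ZMod p)).val` (`(n₁ : k) ≠ 0`; `ZMod.castHom`/`CharP.natCast_eq_natCast` to compare `k` and `ZMod p`). -/
theorem scalars_of_caseR (P : Plc) [Finite k] [CharP k P.ℓ] (r : G →* GL (Fin 2) k) (c : G → M2 k) {X' : Type}
    [AddCommGroup X'] [Finite X'] (𝒟 : DualPair P P.dec (E2 k) X')
    (hact : ∀ (γ : P.dec) (x : E2 k), 𝒟.act γ x = actE r c γ x) (hdet : DetOm P r) {v0 : Fin 2 → k}
    (hv0 : v0 ≠ 0) (hst : ∀ σ ∈ P.dec, ∃ x : k, rm r σ *ᵥ v0 = x • v0) {s : GQ} (hs : s ∈ P.ine) :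
    ∃ n₁ n₂ : ℕ, rm r s *ᵥ v0 = (n₁ : k) • v0 ∧
      ∀ w : Fin 2 → k, ∃ y : k, rm r s *ᵥ w - (n₂ : k) • w = y • v0 := by
  have : Fact P.ℓ.Prime := ⟨P.prime⟩
  obtain ⟨x, hx⟩ := hst s (ine_le_dec P hs)
  obtain ⟨n₁, rfl⟩ := eta_natCast P r c 𝒟 hact hv0 hst hs hx
  have hx0 : (n₁ : k) ≠ 0 := Eta_eig_ne_zero r hv0 hx
  obtain ⟨m, hm⟩ := exists_isOm P.ℓ s
  have hd : (rm r s).det = (m : k) := hdet s hs m hm
  have hfrob : ∀ n : ℕ, (n : k) ^ P.ℓ = (n : k) := by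
    intro n
    have := map_natCast (frobenius k P.ℓ) n
    rwa [frobenius_def] at this
  obtain ⟨n₂, hn₂⟩ := exists_natCast_of_pow_eq (p := P.ℓ) (x := (m : k) / (n₁ : k))
    (by rw [div_pow, hfrob, hfrob])
  refine ⟨n₁, n₂, hx, fun w => ?_⟩
  rw [← hn₂, ← hd]
  exact quot_eigen hv0 hx0 hx w

end Fermat.Agent.S56.F.Ord
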