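/-
S56 F-C, leaf `Chain`: the connected part of `E2 k` is the generalised `ω(τ)`-eigenspace of `τ`.
-/
import Fermat.Agent.S56.F.Ord.Eta
import Fermat.Agent.S56.F.Ord.CE

set_option autoImplicit false

open Fermat.Agent.PT.Local Matrix
open Fermat.Agent.S53 (G M2)
open Fermat.Agent.S56.C (ad rm)

noncomputable section

namespace Fermat.Agent.S56.F.Ord

variable {k : Type} [Field k]

/-- `{(0, β v0)}` -/
def chain1 (v0 : Fin 2 → k) : AddSubgroup (E2 k) where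
  carrier := {x | x.1 = 0 ∧ ∃ β : k, x.2 = β • v0}
  zero_mem' := ⟨rfl, 0, by simp⟩
  add_mem' := by
    rintro x y ⟨hx, a, ha⟩ ⟨hy, b, hb⟩
    exact ⟨by simp [hx, hy], a + b, by simp [ha, hb, add_smul]⟩
  neg_mem' := by
    rintro x ⟨hx, a, ha⟩
    exact ⟨by simp [hx], -a, by simp [ha]⟩

/-- `{(0, y)}` -/
def chain2 : AddSubgroup (E2 k) where
  carrier := {x | x.1 = 0}
  zero_mem' := rfl
  add_mem' := by
    intro x y hx hy
    simp only [Set.mem_setOf_eq] at hx hy ⊢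
    simp [hx, hy]
  neg_mem' := by
    intro x hx
    simp only [Set.mem_setOf_eq] at hx ⊢
    simp [hx]

/-- `{(α v0, y)}` -/
def chain3 (v0 : Fin 2 → k) : AddSubgroup (E2 k) where
  carrier := {x | ∃ α : k, x.1 = α • v0}
  zero_mem' := ⟨0, by simp⟩
  add_mem' := by
    rintro x y ⟨a, ha⟩ ⟨b, hb⟩
    exact ⟨a + b, by simp [ha, hb, add_smul]⟩
  neg_mem' := by
    rintro x ⟨a, ha⟩
    exact ⟨-a, by simp [ha]⟩

/-- the chain `0 ⊆ ε k v0 ⊆ ε k² ⊆ k v0 + ε k² ⊆ E`. -/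
def chainE (v0 : Fin 2 → k) : ℕ → AddSubgroup (E2 k)
  | 0 => ⊥
  | 1 => chain1 v0
  | 2 => chain2
  | 3 => chain3 v0
  | _ => ⊤

/-- **the connected part.**  `𝒟I := 𝒟.restrict (ine_le_dec P)` (same `H`, so same `Conn`; `act` = restriction, all by `rfl`/`Iff.rfl`);
`conn_iff_of_chain 𝒟I hpX (chainE v0) 4 rfl rfl hst hsc ⟨τ, hτ⟩ m hm hm1 x`, `v0` from `hR`.
`hpX`: `CharP k p` (`nsmul` on `E2 k` is componentwise, `(p : k) = 0`).
`hst j`: stability of the four subgroups under `I` (even `D`): `actE_fst`, `actE_snd`, `r σ v0 ∈ k v0`.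
`hsc j γ`: `n₁, n₂` from `scalars_of_caseR`; use `n₁` for `j = 0, 2`, `n₂` for `j = 1, 3`, anything for `j ≥ 4`
(`(n : ℕ) • x = ((n : k) • x.1, (n : k) • x.2)`: `Nat.cast_smul_eq_nsmul`). -/
theorem conn_iff_E (P : Plc) [Finite k] [CharP k P.ℓ] (r : G →* GL (Fin 2) k) (c : G → M2 k) {X' : Type}
    [AddCommGroup X'] [Finite X'] (𝒟 : DualPair P P.dec (E2 k) X')
    (hact : ∀ (γ : P.dec) (x : E2 k), 𝒟.act γ x = actE r c γ x) (hdet : DetOm P r) (hR : CaseR P r)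
    {τ : GQ} (hτ : τ ∈ P.ine) {m : ℕ} (hm : IsOm P.ℓ τ m) (hm1 : (m : ZMod P.ℓ) ≠ 1) (x : E2 k) :
    𝒟.Conn x ↔ (fun y => actE r c τ y - m • y)^[4] x = 0 := by
  obtain ⟨v0, hv0, hst0⟩ := hR
  obtain ⟨𝒟I, h𝒟I⟩ : ∃ 𝒟I : DualPair P P.ine (E2 k) X', 𝒟I = 𝒟.restrict (ine_le_dec P) := ⟨_, rfl⟩
  have hactI : ∀ (γ : P.ine) (x : E2 k), 𝒟I.act γ x = actE r c γ x := by
    intro γ x
    rw [h𝒟I]
    exact hact ⟨γ.1, ine_le_dec P γ.2⟩ x
  have hconn : 𝒟I.Conn x ↔ 𝒟.Conn x := by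
    rw [h𝒟I]
    exact Iff.rfl
  have hpX : ∀ x : E2 k, P.ℓ • x = 0 := by
    intro x
    rw [← Nat.cast_smul_eq_nsmul k, CharP.cast_eq_zero, zero_smul]
  have hn1 : ∀ (n : ℕ) (x : E2 k), (n • x).1 = (n : k) • x.1 := by
    intro n x
    rw [Prod.smul_fst, Nat.cast_smul_eq_nsmul]
  have hn2 : ∀ (n : ℕ) (x : E2 k), (n • x).2 = (n : k) • x.2 := by
    intro n x
    rw [Prod.smul_snd, Nat.cast_smul_eq_nsmul]
  have hst : ∀ j, 𝒟I.Stable (chainE v0 j) := by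
    intro j γ x hx
    rw [hactI]
    obtain ⟨a, ha⟩ := hst0 γ (ine_le_dec P γ.2)
    match j, hx with
    | 0, hx =>
      have hx0 : x = 0 := (AddSubgroup.mem_bot).1 hx
      rw [hx0, map_zero]
      exact AddSubgroup.zero_mem _
    | 1, hx =>
      obtain ⟨h1, β, h2⟩ := hx
      refine ⟨?_, β * a, ?_⟩
      · rw [actE_fst, h1, Matrix.mulVec_zero]
      · rw [actE_snd, h1, h2, Matrix.mulVec_zero, add_zero, Matrix.mulVec_smul, ha, smul_smul]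
    | 2, hx =>
      have h1 : x.1 = 0 := hx
      show (actE r c γ x).1 = 0
      rw [actE_fst, h1, Matrix.mulVec_zero]
    | 3, hx =>
      obtain ⟨α, h1⟩ := hx
      refine ⟨α * a, ?_⟩
      rw [actE_fst, h1, Matrix.mulVec_smul, ha, smul_smul]
    | (j + 4), _ => exact AddSubgroup.mem_top _
  have hsc : ∀ (j : ℕ) (γ : P.ine), ∃ n : ℕ, ∀ x ∈ chainE v0 (j + 1),
      𝒟I.act γ x - n • x ∈ chainE v0 j := by
    intro j γ
    obtain ⟨n₁, n₂, h1, h2⟩ := scalars_of_caseR P r c 𝒟 hact hdet hv0 hst0 γ.2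
    match j with
    | 0 =>
      refine ⟨n₁, fun x hx => ?_⟩
      obtain ⟨hx1, β, hx2⟩ := hx
      rw [hactI]
      refine (AddSubgroup.mem_bot).2 (Prod.ext ?_ ?_)
      · rw [Prod.fst_sub, actE_fst, hn1, hx1, Matrix.mulVec_zero, smul_zero, sub_zero]
        rfl
      · rw [Prod.snd_sub, actE_snd, hn2, hx1, hx2, Matrix.mulVec_zero, add_zero, Matrix.mulVec_smul,
          h1, smul_comm, sub_self]
        rfl
    | 1 =>
      refine ⟨n₂, fun x hx => ?_⟩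
      have hx1 : x.1 = 0 := hx
      rw [hactI]
      obtain ⟨y, hy⟩ := h2 x.2
      refine ⟨?_, y, ?_⟩
      · rw [Prod.fst_sub, actE_fst, hn1, hx1, Matrix.mulVec_zero, smul_zero, sub_zero]
      · rw [Prod.snd_sub, actE_snd, hn2, hx1, Matrix.mulVec_zero, add_zero, hy]
    | 2 =>
      refine ⟨n₁, fun x hx => ?_⟩
      obtain ⟨α, hx1⟩ := hx
      rw [hactI]
      show (actE r c γ x - n₁ • x).1 = 0
      rw [Prod.fst_sub, actE_fst, hn1, hx1, Matrix.mulVec_smul, h1, smul_comm, sub_self]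
    | 3 =>
      refine ⟨n₂, fun x _ => ?_⟩
      rw [hactI]
      obtain ⟨y, hy⟩ := h2 x.1
      refine ⟨y, ?_⟩
      rw [Prod.fst_sub, actE_fst, hn1, hy]
    | (j + 4) => exact ⟨0, fun x _ => AddSubgroup.mem_top _⟩
  have key := conn_iff_of_chain 𝒟I hpX (chainE v0) 4 rfl rfl hst hsc ⟨τ, hτ⟩ m hm hm1 x
  have h1 : (fun y => 𝒟I.act ⟨τ, hτ⟩ y - m • y) = (fun y => actE r c τ y - m • y) := by
    funext y
    rw [hactI]
  rw [h1, hconn] at key
  exact key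

end Fermat.Agent.S56.F.Ord

end
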