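/-
S56 F-C, BLOCK `C1` (interface): a flat lift in CASE R is "ordinary" (general coordinates).
-/
import Fermat.Agent.S56.F.Ord.Chain
import Fermat.Agent.S56.F.Ord.C1a
import Fermat.Agent.S56.F.Ord.C1b

set_option autoImplicit false

open Fermat.Agent.PT.Local Matrix
open Fermat.Agent.S53 (G M2)
open Fermat.Agent.S56.C (ad rm)

namespace Fermat.Agent.S56.F.Ord

variable {k : Type} [Field k]

/-- **BLOCK C1.**  `τ ∈ I` with `ω(τ) = m ≠ 1`.  If `(1 + ε c) r` is flat and `r` is in CASE R then `r τ` has the eigenvalue `m`, and for EVERY eigenvector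
`v` (`r τ v = m v`): the line `k v` is `D`-stable, `I` acts trivially on `k²/kv`, and `c` is cohomologous to a cocycle `c'` with `c' σ (kv) ⊆ kv` on `D`,
`c' σ (k²) ⊆ kv` on `I`.
PROOF (see `Eta.lean`, `Chain.lean`, `C1a.lean`, `C1b.lean`): `𝒟` := dual pair over `D` on `E2 k` (`exists_dualPair_of_flatMod`), `E0 := 𝒟.conn`.
(1) `conn_iff_E` : `x ∈ E0 ↔ (τ - m)^[4] x = 0`; (2) `E0` is `D`-stable (`stable_conn`); (3) `σ x - x ∈ E0` for `σ ∈ I` (`conn_act_sub`);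
then linear algebra `C1a`, `C1b`. -/
theorem flat_general (P : Plc) [Finite k] [CharP k P.ℓ] (r : G →* GL (Fin 2) k) (hdet : DetOm P r)
    (hR : CaseR P r) {τ : GQ} (hτ : τ ∈ P.ine) {m : ℕ} (hm : IsOm P.ℓ τ m) (hm1 : (m : ZMod P.ℓ) ≠ 1)
    (c : G → M2 k) (hfl : FlatMod P.ℓ (E2 k) (actE r c)) :
    (∃ v : Fin 2 → k, v ≠ 0 ∧ rm r τ *ᵥ v = (m : k) • v) ∧
    ∀ v : Fin 2 → k, v ≠ 0 → rm r τ *ᵥ v = (m : k) • v →
      OrdLine P r v ∧ ∃ X : M2 k, NormV P v (c + cob r X) := by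
  haveI : Fact P.ℓ.Prime := ⟨P.prime⟩
  obtain ⟨X', _, _, 𝒟, hact⟩ := exists_dualPair_of_flatMod P P.dec (actE r c) hfl
  have h1 : ∀ x, x ∈ 𝒟.conn ↔ (fun y => actE r c τ y - m • y)^[4] x = 0 :=
    fun x => conn_iff_E P r c 𝒟 hact hdet hR hτ hm hm1 x
  have h2 : ∀ σ ∈ P.dec, ∀ x ∈ 𝒟.conn, actE r c σ x ∈ 𝒟.conn := fun σ hσ x hx => by
    rw [← hact ⟨σ, hσ⟩]
    exact 𝒟.stable_conn le_rfl ⟨σ, hσ⟩ x hx
  have h3 : ∀ σ ∈ P.ine, ∀ x, actE r c σ x - x ∈ 𝒟.conn := fun σ hσ x => by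
    rw [← hact ⟨σ, ine_le_dec P hσ⟩]
    exact 𝒟.conn_act_sub ⟨σ, ine_le_dec P hσ⟩ hσ x
  have hm1' : (m : k) ≠ 1 := fun h => hm1 ((cast_eq_one_iff k m).1 h)
  obtain ⟨hex, hall⟩ := C1a r c τ m hm.cast_ne_zero hm1' (hdet τ hτ m hm) 𝒟.conn h1 (h3 τ hτ)
  refine ⟨hex, fun v hv hev => ?_⟩
  obtain ⟨X, hX⟩ := hall v hv hev
  have h := C1b P r c hv X 𝒟.conn hX h2 h3
  exact ⟨h.1, X, h.2⟩

end Fermat.Agent.S56.F.Ord
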