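/-
S56 F-C, block C2, leaf `C2a`: matrix entries.  `r|I = (ω, b; 0, 1)`, `c|I = (0, c₂; 0, 0)`.
-/
import Fermat.Agent.S56.F.Ord.LFX

set_option autoImplicit false

open Fermat.Agent.PT.Local Matrix
open Fermat.Agent.S53 (G M2)
open Fermat.Agent.S56.C (ad rm)

namespace Fermat.Agent.S56.F.Ord

variable {k : Type} [Field k]

/-- `rm r (s t) = rm r s * rm r t`, entry `(0,1)`: `a_s b_t + b_s d_t` (`Matrix.mul_apply`, `Fin.sum_univ_two`). -/
theorem b_coc {P : Plc} {r : G →* GL (Fin 2) k} (hr : UT0 P r) {s t : GQ} (hs : s ∈ P.ine) (ht : t ∈ P.ine)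
    {m : ℕ} (hm : IsOm P.ℓ s m) : rm r (s * t) 0 1 = rm r s 0 1 + (m : k) * rm r t 0 1 := by
  have h : rm r (s * t) = rm r s * rm r t := by
    unfold rm
    rw [map_mul]
    rfl
  rw [h, Matrix.mul_apply, Fin.sum_univ_two, hr.a_ine s hs m hm, hr.d_ine t ht]
  ring

/-- on `I` the matrix `c t` is `(0, c₂; 0, 0)` (`NormC0` + trace zero, `Matrix.trace_fin_two`). -/
theorem c_ine {P : Plc} {r : G →* GL (Fin 2) k} {c : G → M2 k} (hc : CocD P r c) (hn : NormC0 P c) {t : GQ}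
    (ht : t ∈ P.ine) : c t 0 0 = 0 ∧ c t 1 0 = 0 ∧ c t 1 1 = 0 := by
  have h00 := hn.diag t ht
  have htr := hc.tr0 t (ine_le_dec P ht)
  rw [Matrix.trace_fin_two, h00, zero_add] at htr
  exact ⟨h00, hn.low t (ine_le_dec P ht), htr⟩

/-- `M := ad (r s) (c t)` satisfies `M * rm r s = rm r s * c t`; entries `(0,0)`: `M 0 0 * m = 0`, `(0,1)`: `M 0 0 * b + M 0 1 = m * c₂ t`;
`(m : k) ≠ 0` because `det (rm r s) = m * 1 ≠ 0` (`rm r s` is invertible; no `CharP` needed). -/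
theorem c2_coc {P : Plc} {r : G →* GL (Fin 2) k} (hr : UT0 P r) {c : G → M2 k} (hc : CocD P r c)
    (hn : NormC0 P c) {s t : GQ} (hs : s ∈ P.ine) (ht : t ∈ P.ine) {m : ℕ} (hm : IsOm P.ℓ s m) :
    c (s * t) 0 1 = c s 0 1 + (m : k) * c t 0 1 := by
  obtain ⟨c00, c10, c11⟩ := c_ine hc hn ht
  have hR00 := hr.a_ine s hs m hm
  have hR10 := hr.low s (ine_le_dec P hs)
  have hR11 := hr.d_ine s hs
  have hm0 : (m : k) ≠ 0 := by
    have hdet : (rm r s).det ≠ 0 :=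
      ((Matrix.isUnit_iff_isUnit_det _).1 (Units.isUnit (r s))).ne_zero
    rw [Matrix.det_fin_two, hR00, hR10, hR11, mul_one, mul_zero, sub_zero] at hdet
    exact hdet
  have hM : ad (r s) (c t) * rm r s = rm r s * c t := by
    unfold ad rm
    rw [Matrix.mul_assoc, Units.inv_mul, Matrix.mul_one]
  have e00 := congrFun (congrFun hM 0) 0
  have e01 := congrFun (congrFun hM 0) 1
  rw [Matrix.mul_apply, Matrix.mul_apply, Fin.sum_univ_two, Fin.sum_univ_two] at e00 e01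
  rw [hR00, hR10, c00, c10] at e00
  rw [hR00, hR11, c11] at e01
  have hM00 : ad (r s) (c t) 0 0 = 0 := by
    have : ad (r s) (c t) 0 0 * (m : k) = 0 := by linear_combination e00
    exact (mul_eq_zero.1 this).resolve_right hm0
  rw [hM00] at e01
  rw [hc.coc s (ine_le_dec P hs) t (ine_le_dec P ht), Matrix.add_apply]
  linear_combination e01

/-- the action of `s ∈ I` with `ω(s) = 1` on `E2 k`. -/
theorem actE_of_om_one {P : Plc} {r : G →* GL (Fin 2) k} (hr : UT0 P r) {c : G → M2 k} (hc : CocD P r c)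
    (hn : NormC0 P c) {s : GQ} (hs : s ∈ P.ine) (hm : IsOm P.ℓ s 1) (x : E2 k) :
    (actE r c s x).1 0 = x.1 0 + rm r s 0 1 * x.1 1 ∧ (actE r c s x).1 1 = x.1 1 ∧
    (actE r c s x).2 0 = x.2 0 + rm r s 0 1 * x.2 1 + c s 0 1 * x.1 1 ∧ (actE r c s x).2 1 = x.2 1 := by
  obtain ⟨c00, c10, c11⟩ := c_ine hc hn hs
  have hR00 := hr.a_ine s hs 1 hm
  rw [Nat.cast_one] at hR00
  have hR10 := hr.low s (ine_le_dec P hs)
  have hR11 := hr.d_ine s hs
  rw [actE_fst, actE_snd]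
  simp only [Matrix.mulVec, dotProduct, Fin.sum_univ_two, Matrix.mul_apply, Pi.add_apply, hR00, hR10,
    hR11, c00, c10, c11]
  refine ⟨by ring, by ring, by ring, by ring⟩

end Fermat.Agent.S56.F.Ord
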