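/-
S56 F-C, block C2, leaf `KumEx`: Hilbert 90 for the `ω`-twisted cocycles `l ∘ y : I → F_p(ω) = μ_p`.
-/
import Fermat.Agent.S56.F.Ord.LFX

set_option autoImplicit false

open Fermat.Agent.PT.Local IntermediateField

namespace Fermat.Agent.S56.F.Ord

variable {k : Type} [Field k]

/-- `LF.exists_isKum P.ine hζ (fun s => l (y s))`.  Cocycle identity: `m` with `IsOm p s m` (`exists_isOm`); `l (y (s t)) = l (y s) + (m : ZMod p) * l (y t)` (`hy`, `map_add`,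
`map_natCast_mul`); `s (ζ^j) = (ζ^j)^m` (`hm`, `(ζ^j)^p = 1`); `LF.zeta_pow_val_add`, `LF.zeta_pow_val_natCast_mul`.
The Kummer element `u = β^p` lies in `fixedField P.ine` (given by `exists_isKum`). -/
theorem exists_kum (P : Plc) (y : GQ → k)
    (hy : ∀ s ∈ P.ine, ∀ t ∈ P.ine, ∀ m : ℕ, IsOm P.ℓ s m → y (s * t) = y s + (m : k) * y t)
    (hsm : ∃ L : Fld, FiniteDimensional ℚ L ∧ ∀ s ∈ P.ine, (∀ x ∈ L, s x = x) → y s = 0)
    (l : k →+ ZMod P.ℓ) {ζ : Qb} (hζ : IsPrimitiveRoot ζ P.ℓ) :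
    ∃ β : Qb, β ≠ 0 ∧ (∀ s ∈ P.ine, s β = ζ ^ (l (y s)).val * β) ∧ β ^ P.ℓ ∈ fixedField P.ine := by
  have : Fact P.ℓ.Prime := ⟨P.prime⟩
  have hζp : ζ ^ P.ℓ = 1 := hζ.pow_eq_one
  obtain ⟨u, hu, _, β, hβ0, hβu, hβ⟩ := LF.exists_isKum P.ine hζ (fun s => l (y s))
    (by
      obtain ⟨L, hL, h⟩ := hsm
      exact ⟨L, hL, fun s hs hx => by rw [h s hs hx, map_zero]⟩)
    (by
      intro s hs t ht
      obtain ⟨m, hm⟩ := exists_isOm P.ℓ s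
      have e1 : l (y (s * t)) = l (y s) + (m : ZMod P.ℓ) * l (y t) := by
        rw [hy s hs t ht m hm, map_add, ← nsmul_eq_mul, map_nsmul, nsmul_eq_mul]
      have e2 : s (ζ ^ (l (y t)).val) = (ζ ^ (l (y t)).val) ^ m :=
        hm _ (by rw [← pow_mul, mul_comm, pow_mul, hζp, one_pow])
      rw [e1, LF.zeta_pow_val_add hζp, LF.zeta_pow_val_natCast_mul hζp, e2])
  exact ⟨β, hβ0, hβ, hβu ▸ hu⟩

/-- for `s ∈ I`: `s β = β ↔ l (y s) = 0` (`LF.zeta_pow_val_eq_one_iff`). -/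
theorem kum_fix_iff (P : Plc) {y : GQ → k} {l : k →+ ZMod P.ℓ} {ζ : Qb} (hζ : IsPrimitiveRoot ζ P.ℓ) {β : Qb}
    (hβ0 : β ≠ 0) (hβ : ∀ s ∈ P.ine, s β = ζ ^ (l (y s)).val * β) {s : GQ} (hs : s ∈ P.ine) :
    s β = β ↔ l (y s) = 0 := by
  have : Fact P.ℓ.Prime := ⟨P.prime⟩
  rw [hβ s hs, ← LF.zeta_pow_val_eq_one_iff hζ, mul_eq_right₀ hβ0]

end Fermat.Agent.S56.F.Ord
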