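/-
S56 F-C, block C2, leaf `PeuAbs`: the depth argument (A6 + B7a + F2): a Kummer extension cut out by a point of a dual pair is not "tres ramifie".
-/
import Fermat.Agent.S56.F.Ord.LFX

set_option autoImplicit false

open Fermat.Agent.PT.Local IntermediateField

namespace Fermat.Agent.S56.F.Ord

/-- **(PeuAbs).**  `lam^(p-1) = -p`, `Γ₀ = Stab_I(lam)`, `K = Qb^Γ₀ ∋ ζ`.  `𝒟` a dual pair over `Γ₀` on `X` (killed by `p`), `C ≤ X` stable, `x ∈ X`, `β ≠ 0` with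
`u = β^p ∈ Qb^I` and: `s ∈ Γ₀` fixes `x` modulo `C` iff it fixes `β`.  Then `v(β) ∈ v(p)^ℤ`.
PROOF. Fix `ζ` primitive (`exists_prim`), `ζ ∈ KK P lam` (`LF.IsLam.zeta_mem`).  `v u = v p ^ n` (`LF.v_of_fixed_ine`, `u ≠ 0`).
* If `p ∣ n`, `n = p n'`: `v β ^ p = (v p ^ n') ^ p`, so `v β = v p ^ n'` (`pow_left_injective₀`/`LF.v_eq_of_pow_eq` applied to `β` and `(p : Qb)^n'`).
* Otherwise `v u = v lam ^ ((p-1) n)` (`LF.IsLam.v_pow`, `zpow_mul`, `zpow_natCast`), `p ∤ (p-1) n` (`Int.Prime.dvd_mul`/`Prime.dvd_mul`, `p ∤ p - 1`).  CONTRADICTION: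
  (1) some `g ∈ Γ₀` moves `β`: else `β ∈ KK P lam` (`mem_fixedField_iff`), `v β = v lam ^ j` (`LF.IsLam.v_KK`), `v lam ^ (p j) = v lam ^ ((p-1) n)`, so `p j = (p-1) n`
      (`zpow` injective since `0 < v lam < 1`: `LF.IsLam.v_lt_one`, `v_ne_zero`, `zpow_right_injective₀`).
  (2) `𝒬 := 𝒟.quot C hC`, `x' := mk x`, `z := 𝒬.act g x' - x' = mk (𝒟.act g x - x) ≠ 0` (`quot_act`, `hiff`, `QuotientAddGroup.eq_zero_iff`).
  (3) `ϖ ^ p = lam` (`IsAlgClosed.exists_pow_nat_eq`), `w := (ζ - 1) * ϖ`.  `𝒬.sge_of_depth x' g w`: let `a ∈ P.A` with `𝒬.FixedByStab x' a`; every `s ∈ LF.stab (LF.G0 P lam) β`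
      lies in `𝒬.stab x'` (`hiff`), so `a ∈ fixedField (LF.stab (LF.G0 P lam) β)`; `LF.depth_tres` gives `v (g a - a)^p ≤ v (ζ-1)^p * v lam = v w ^ p`, so
      `v (g a - a) ≤ v w` (`pow_le_pow_iff_left₀`), i.e. `Dv P w (g a - a)`.
  (4) (F2) `𝒬.sge_dv_zeta` (the quotient is killed by `p`): `v (ζ - 1) ≤ v w = v (ζ-1) * v ϖ < v (ζ - 1)` (`v ϖ < 1` as `v ϖ ^ p = v lam < 1`; `ζ ≠ 1`). -/
theorem peu_abs (P : Plc) {lam : Qb} (hlam : LF.IsLam P ((P.ℓ - 1) * 1) lam) {X X' : Type} [AddCommGroup X]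
    [AddCommGroup X'] [Finite X] [Finite X'] (𝒟 : DualPair P (LF.G0 P lam) X X')
    (hpX : ∀ x : X, P.ℓ • x = 0) (C : AddSubgroup X) (hC : 𝒟.Stable C) (x : X) {β : Qb} (hβ0 : β ≠ 0)
    (hβI : β ^ P.ℓ ∈ fixedField P.ine)
    (hiff : ∀ s : LF.G0 P lam, 𝒟.act s x - x ∈ C ↔ (s : GQ) β = β) :
    ∃ n : ℤ, P.v β = P.v (P.ℓ : Qb) ^ n := by
  haveI : Fact P.ℓ.Prime := ⟨P.prime⟩
  have hℓ : 0 < P.ℓ := P.prime.pos
  obtain ⟨ζ, hζ⟩ := exists_prim P.ℓ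
  have hζK : ζ ∈ LF.KK P lam := LF.IsLam.zeta_mem P hlam hζ
  have hu0 : β ^ P.ℓ ≠ 0 := pow_ne_zero _ hβ0
  obtain ⟨n, hn⟩ := LF.v_of_fixed_ine P hβI hu0
  by_cases hpn : (P.ℓ : ℤ) ∣ n
  · obtain ⟨n', rfl⟩ := hpn
    refine ⟨n', ?_⟩
    rw [← map_zpow₀]
    apply LF.v_eq_of_pow_eq P hℓ.ne'
    rw [← map_pow, hn, map_zpow₀, ← zpow_natCast, ← zpow_mul, mul_comm]
  · exfalso
    have hlam0 := LF.IsLam.ne_zero P hlam
    have hl1 := LF.IsLam.v_lt_one P hlam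
    have hl0 := LF.IsLam.v_ne_zero P hlam
    have hvu : P.v (β ^ P.ℓ) = P.v lam ^ (((P.ℓ - 1 : ℕ) : ℤ) * n) := by
      rw [hn, ← LF.IsLam.v_pow P hlam, mul_one, zpow_mul, zpow_natCast]
    have hpz : Prime (P.ℓ : ℤ) := Nat.prime_iff_prime_int.mp P.prime
    have hnd : ¬ (P.ℓ : ℤ) ∣ ((P.ℓ - 1 : ℕ) : ℤ) * n := by
      intro h
      rcases hpz.dvd_or_dvd h with h | h
      · have h1 : P.ℓ ∣ P.ℓ - 1 := by exact_mod_cast h
        have h2 := P.prime.two_le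
        have h3 := Nat.le_of_dvd (by omega) h1
        omega
      · exact hpn h
    -- (1) some element of `Γ₀` moves `β`
    have hmove : ∃ g : LF.G0 P lam, (g : GQ) β ≠ β := by
      by_contra hcon
      push Not at hcon
      have hβK : β ∈ LF.KK P lam := by
        rw [IntermediateField.mem_fixedField_iff]
        intro s hs
        exact hcon ⟨s, hs⟩
      obtain ⟨j, hj⟩ := LF.IsLam.v_KK P hlam hβK hβ0
      rw [map_pow, hj, ← zpow_natCast, ← zpow_mul] at hvu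
      have h5 := v_zpow_injective P hlam0 hl1 hvu
      exact hnd ⟨j, by rw [← h5, mul_comm]⟩
    obtain ⟨g, hg⟩ := hmove
    -- (2) the quotient
    have hz : (𝒟.quot C hC).act g (QuotientAddGroup.mk x) - QuotientAddGroup.mk x ≠ 0 := by
      rw [𝒟.quot_act C hC g x, ← QuotientAddGroup.mk_sub, Ne, QuotientAddGroup.eq_zero_iff, hiff]
      exact hg
    -- (3) the depth
    obtain ⟨ϖ, hϖ⟩ := IsAlgClosed.exists_pow_nat_eq lam hℓ
    have hsge : (𝒟.quot C hC).Sge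
        ((𝒟.quot C hC).act g (QuotientAddGroup.mk x) - QuotientAddGroup.mk x) ((ζ - 1) * ϖ) := by
      apply (𝒟.quot C hC).sge_of_depth (QuotientAddGroup.mk x) g
      intro a ha hfix
      have ha' : a ∈ fixedField (LF.stab (LF.G0 P lam) β) := by
        rw [IntermediateField.mem_fixedField_iff]
        intro s hs
        apply hfix
        refine ⟨hs.1, ?_⟩
        rw [𝒟.quot_act C hC, ← sub_eq_zero, ← QuotientAddGroup.mk_sub,
          QuotientAddGroup.eq_zero_iff, hiff]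
        exact hs.2
      have h1 := LF.depth_tres P hlam hζ hζK (LF.fixedField_ine_le_KK P hβI) hnd hvu g.2 ha'
        ((P.A.valuation_le_one_iff a).2 ha)
      show P.v ((g : GQ) a - a) ≤ P.v ((ζ - 1) * ϖ)
      rw [← pow_le_pow_iff_left₀ zero_le zero_le hℓ.ne', map_mul, mul_pow, ← map_pow P.v ϖ, hϖ]
      exact h1
    -- (4) (F2)
    have hpX' : ∀ y : X ⧸ C, P.ℓ • y = 0 := by
      intro y
      induction y using QuotientAddGroup.induction_on with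
      | H y =>
        rw [← QuotientAddGroup.mk_nsmul, hpX]
        rfl
    have h4 : P.v (ζ - 1) ≤ P.v ((ζ - 1) * ϖ) :=
      (𝒟.quot C hC).sge_dv_zeta hpX' hz hsge hζ.pow_eq_one (hζ.ne_one P.prime.one_lt)
    have hϖ1 : P.v ϖ < 1 := by
      by_contra hcon
      have h6 : 1 ≤ P.v ϖ ^ P.ℓ := one_le_pow₀ (not_lt.1 hcon)
      rw [← map_pow, hϖ] at h6
      exact absurd hl1 (not_lt.2 h6)
    have hζ0 : 0 < P.v (ζ - 1) :=
      zero_lt_iff.2 ((map_ne_zero P.v).2 (sub_ne_zero.2 (hζ.ne_one P.prime.one_lt)))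
    rw [map_mul] at h4
    exact absurd (mul_lt_of_lt_one_right hζ0 hϖ1) (not_lt.2 h4)

end Fermat.Agent.S56.F.Ord
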