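/-
S56 F-C, BLOCK `C2`: flat ⟹ peu ramifie (upper triangular coordinates).  Assembly of `PeuAbs`, `KumEx`, `C2a`.
-/
import Fermat.Agent.S56.F.Ord.PeuAbs
import Fermat.Agent.S56.F.Ord.KumEx
import Fermat.Agent.S56.F.Ord.C2a

set_option autoImplicit false

open Fermat.Agent.PT.Local Matrix IntermediateField
open Fermat.Agent.S53 (G M2)
open Fermat.Agent.S56.C (ad rm)

namespace Fermat.Agent.S56.F.Ord

variable {k : Type} [Field k]

/-- `{(0, β e₁) | l β = 0}`. -/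
def C2_Cb {p : ℕ} (l : k →+ ZMod p) : AddSubgroup (E2 k) where
  carrier := {x | x.1 = 0 ∧ x.2 1 = 0 ∧ l (x.2 0) = 0}
  zero_mem' := ⟨rfl, rfl, map_zero l⟩
  add_mem' := by
    rintro x y ⟨h1, h2, h3⟩ ⟨h1', h2', h3'⟩
    refine ⟨by rw [Prod.fst_add, h1, h1', add_zero], by rw [Prod.snd_add, Pi.add_apply, h2, h2', add_zero], ?_⟩
    rw [Prod.snd_add, Pi.add_apply, map_add, h3, h3', add_zero]
  neg_mem' := by
    rintro x ⟨h1, h2, h3⟩
    refine ⟨by rw [Prod.fst_neg, h1, neg_zero], by rw [Prod.snd_neg, Pi.neg_apply, h2, neg_zero], ?_⟩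
    rw [Prod.snd_neg, Pi.neg_apply, map_neg, h3, neg_zero]

/-- `{(α e₁, β e₁) | l β = 0}`. -/
def C2_Cc {p : ℕ} (l : k →+ ZMod p) : AddSubgroup (E2 k) where
  carrier := {x | x.1 1 = 0 ∧ x.2 1 = 0 ∧ l (x.2 0) = 0}
  zero_mem' := ⟨rfl, rfl, map_zero l⟩
  add_mem' := by
    rintro x y ⟨h1, h2, h3⟩ ⟨h1', h2', h3'⟩
    refine ⟨by rw [Prod.fst_add, Pi.add_apply, h1, h1', add_zero],
      by rw [Prod.snd_add, Pi.add_apply, h2, h2', add_zero], ?_⟩
    rw [Prod.snd_add, Pi.add_apply, map_add, h3, h3', add_zero]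
  neg_mem' := by
    rintro x ⟨h1, h2, h3⟩
    refine ⟨by rw [Prod.fst_neg, Pi.neg_apply, h1, neg_zero],
      by rw [Prod.snd_neg, Pi.neg_apply, h2, neg_zero], ?_⟩
    rw [Prod.snd_neg, Pi.neg_apply, map_neg, h3, neg_zero]

/-- the common part of the two applications of `peu_abs`. -/
theorem C2_core (P : Plc) [Finite k] [CharP k P.ℓ] (r : G →* GL (Fin 2) k) (c : G → M2 k)
    (hfl : FlatMod P.ℓ (E2 k) (actE r c)) (y : GQ → k)
    (hy : ∀ s ∈ P.ine, ∀ t ∈ P.ine, ∀ m : ℕ, IsOm P.ℓ s m → y (s * t) = y s + (m : k) * y t)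
    (hsm : ∃ L : Fld, FiniteDimensional ℚ L ∧ ∀ s ∈ P.ine, (∀ x ∈ L, s x = x) → y s = 0)
    (C : (k →+ ZMod P.ℓ) → AddSubgroup (E2 k)) (x : E2 k)
    (hCfix : ∀ l, ∀ s ∈ P.ine, IsOm P.ℓ s 1 → ∀ z ∈ C l, actE r c s z = z)
    (hx : ∀ l, ∀ s ∈ P.ine, IsOm P.ℓ s 1 → (actE r c s x - x ∈ C l ↔ l (y s) = 0)) : PeuK P y := by
  have : Fact P.ℓ.Prime := ⟨P.prime⟩
  intro l ζ hζ
  have hnd : ¬ P.ℓ ∣ (P.ℓ - 1) * 1 := by
    rw [mul_one]
    intro h
    have h1 := Nat.le_of_dvd (by have := P.prime.two_le; omega) h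
    have := P.prime.two_le
    omega
  obtain ⟨lam, hlam⟩ := LF.exists_isLam P hnd
  obtain ⟨X', _, _, 𝒟, hact⟩ := exists_dualPair_of_flatMod P (LF.G0 P lam) (actE r c) hfl
  obtain ⟨β, hβ0, hβ, hβI⟩ := exists_kum P y hy hsm l hζ
  have hζK : ζ ∈ LF.KK P lam := LF.IsLam.zeta_mem P hlam hζ
  have hom : ∀ s : LF.G0 P lam, IsOm P.ℓ (s : GQ) 1 := fun s =>
    (isOm_one_iff hζ _).2 ((IntermediateField.mem_fixedField_iff _ _).1 hζK s s.2)
  have hine : ∀ s : LF.G0 P lam, (s : GQ) ∈ P.ine := fun s => s.2.1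
  have hpX : ∀ z : E2 k, P.ℓ • z = 0 := fun z => by
    rw [← Nat.cast_smul_eq_nsmul k, CharP.cast_eq_zero, zero_smul]
  refine ⟨β, hβ0, hβ, peu_abs P hlam 𝒟 hpX (C l) (fun γ z hz => ?_) x hβ0 hβI (fun s => ?_)⟩
  · rw [hact, hCfix l _ (hine γ) (hom γ) z hz]
    exact hz
  · rw [hact]
    exact (hx l _ (hine s) (hom s)).trans (kum_fix_iff P hζ hβ0 hβ (hine s)).symm

/-- **BLOCK C2.**  `r|D = (a, b; 0, d)`, `= (ω, b; 0, 1)` on `I`; `c|D = (c₁, c₂; 0, -c₁)`, `= (0, c₂; 0, 0)` on `I`; `(1 + ε c) r` flat.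
Then `b|I` and `c₂|I` are peu ramifies. -/
theorem peu_of_flat (P : Plc) [Finite k] [CharP k P.ℓ] (r : G →* GL (Fin 2) k) (hrs : RSm r) (hr : UT0 P r)
    (c : G → M2 k) (hc : CocD P r c) (hn : NormC0 P c) (hfl : FlatMod P.ℓ (E2 k) (actE r c)) :
    PeuK P (fun σ => rm r σ 0 1) ∧ PeuK P (fun σ => c σ 0 1) := by
  constructor
  · refine C2_core P r c hfl _ (fun s hs t ht m hm => b_coc hr hs ht hm) ?_ C2_Cb (0, ![0, 1]) ?_ ?_
    · obtain ⟨L, hL, h⟩ := hrs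
      refine ⟨L, hL, fun s _ hx => ?_⟩
      simp [rm, h s hx]
    · rintro l s hs hm z ⟨h1, h2, h3⟩
      obtain ⟨e1, e2, e3, e4⟩ := actE_of_om_one hr hc hn hs hm z
      have h11 : z.1 1 = 0 := by rw [h1]; rfl
      rw [h11, mul_zero, add_zero] at e1
      rw [h11, h2, mul_zero, mul_zero, add_zero, add_zero] at e3
      exact Prod.ext (funext (Fin.forall_fin_two.2 ⟨e1, e2⟩)) (funext (Fin.forall_fin_two.2 ⟨e3, e4⟩))
    · intro l s hs hm
      obtain ⟨e1, e2, e3, e4⟩ := actE_of_om_one hr hc hn hs hm (0, ![0, 1])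
      have d10 : (actE r c s (0, ![0, 1]) - (0, ![0, 1])).1 0 = 0 := by
        rw [Prod.fst_sub, Pi.sub_apply, e1]; simp
      have d11 : (actE r c s (0, ![0, 1]) - (0, ![0, 1])).1 1 = 0 := by
        rw [Prod.fst_sub, Pi.sub_apply, e2]; simp
      have d20 : (actE r c s (0, ![0, 1]) - (0, ![0, 1])).2 0 = rm r s 0 1 := by
        rw [Prod.snd_sub, Pi.sub_apply, e3]; simp
      have d21 : (actE r c s (0, ![0, 1]) - (0, ![0, 1])).2 1 = 0 := by
        rw [Prod.snd_sub, Pi.sub_apply, e4]; simp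
      constructor
      · rintro ⟨-, -, h3⟩
        rwa [d20] at h3
      · intro h
        exact ⟨funext (Fin.forall_fin_two.2 ⟨d10, d11⟩), d21, by rw [d20]; exact h⟩
  · refine C2_core P r c hfl _ (fun s hs t ht m hm => c2_coc hr hc hn hs ht hm) ?_ C2_Cc (![0, 1], 0) ?_ ?_
    · obtain ⟨L, hL, h⟩ := hc.smooth
      refine ⟨L, hL, fun s hs hx => ?_⟩
      simp [h s (ine_le_dec P hs) hx]
    · rintro l s hs hm z ⟨h1, h2, h3⟩
      obtain ⟨e1, e2, e3, e4⟩ := actE_of_om_one hr hc hn hs hm z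
      rw [h1, mul_zero, add_zero] at e1
      rw [h1, h2, mul_zero, mul_zero, add_zero, add_zero] at e3
      exact Prod.ext (funext (Fin.forall_fin_two.2 ⟨e1, e2⟩)) (funext (Fin.forall_fin_two.2 ⟨e3, e4⟩))
    · intro l s hs hm
      obtain ⟨e1, e2, e3, e4⟩ := actE_of_om_one hr hc hn hs hm (![0, 1], 0)
      have d11 : (actE r c s (![0, 1], 0) - (![0, 1], 0)).1 1 = 0 := by
        rw [Prod.fst_sub, Pi.sub_apply, e2]; simp
      have d20 : (actE r c s (![0, 1], 0) - (![0, 1], 0)).2 0 = c s 0 1 := by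
        rw [Prod.snd_sub, Pi.sub_apply, e3]; simp
      have d21 : (actE r c s (![0, 1], 0) - (![0, 1], 0)).2 1 = 0 := by
        rw [Prod.snd_sub, Pi.sub_apply, e4]; simp
      constructor
      · rintro ⟨-, -, h3⟩
        rwa [d20] at h3
      · intro h
        exact ⟨d11, d21, by rw [d20]; exact h⟩

end Fermat.Agent.S56.F.Ord
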