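/-
S56 F-C, BLOCK `Conj` (interface): passage to upper triangular coordinates; transfer of the output contract under conjugation.  Pure (linear) algebra.
-/
import Fermat.Agent.S56.F.Ord.Om

set_option autoImplicit false

open Fermat.Agent.PT.Local Matrix
open Fermat.Agent.S53 (G M2)
open Fermat.Agent.S56.C (ad rm)

namespace Fermat.Agent.S56.F.Ord

variable {k : Type} [Field k]

/-- `g⁻¹` := the matrix with columns `v, w`, `wdg v w ≠ 0` (`w = ![0,1]` if `v 0 ≠ 0`, `w = ![1,0]` otherwise). -/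
theorem exists_conj {v : Fin 2 → k} (hv : v ≠ 0) : ∃ g : GL (Fin 2) k, (g : M2 k) *ᵥ v = ![1, 0] := by
  obtain ⟨w, hw⟩ : ∃ w : Fin 2 → k, v 0 * w 1 - w 0 * v 1 ≠ 0 := by
    by_cases h0 : v 0 = 0
    · refine ⟨![1, 0], ?_⟩
      have h1 : v 1 ≠ 0 := by
        intro h1
        apply hv
        ext i
        fin_cases i
        · exact h0
        · exact h1
      simpa [h0] using h1
    · exact ⟨![0, 1], by simpa using h0⟩
  have hdet : (!![v 0, w 0; v 1, w 1] : M2 k).det ≠ 0 := by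
    rw [Matrix.det_fin_two_of]
    exact hw
  obtain ⟨h, hA⟩ : ∃ h : GL (Fin 2) k, (h : M2 k) *ᵥ ![1, 0] = v := by
    refine ⟨Matrix.GeneralLinearGroup.mkOfDetNeZero _ hdet, ?_⟩
    show (!![v 0, w 0; v 1, w 1] : M2 k) *ᵥ ![1, 0] = v
    ext i
    fin_cases i <;> simp [Matrix.mulVec, dotProduct, Fin.sum_univ_two]
  refine ⟨h⁻¹, ?_⟩
  rw [← hA, Matrix.mulVec_mulVec, ← Units.val_mul, inv_mul_cancel, Units.val_one,
    Matrix.one_mulVec]

theorem Conj_ad_mul (a b : GL (Fin 2) k) (X : M2 k) : ad (a * b) X = ad a (ad b X) := by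
  unfold ad
  rw [_root_.mul_inv_rev, Units.val_mul, Units.val_mul]
  simp only [Matrix.mul_assoc]

theorem Conj_ad_inv_ad (g : GL (Fin 2) k) (X : M2 k) : ad g⁻¹ (ad g X) = X := by
  rw [← Conj_ad_mul, inv_mul_cancel]
  unfold ad
  rw [inv_one, Units.val_one, Matrix.one_mul, Matrix.mul_one]

theorem Conj_ad_add (g : GL (Fin 2) k) (X Y : M2 k) : ad g (X + Y) = ad g X + ad g Y := by
  unfold ad
  rw [Matrix.mul_add, Matrix.add_mul]

theorem Conj_ad_sub (g : GL (Fin 2) k) (X Y : M2 k) : ad g (X - Y) = ad g X - ad g Y := by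
  unfold ad
  rw [Matrix.mul_sub, Matrix.sub_mul]

theorem Conj_inv_mulVec {g : GL (Fin 2) k} {v : Fin 2 → k} (hg : (g : M2 k) *ᵥ v = ![1, 0]) :
    ((g⁻¹ : GL (Fin 2) k) : M2 k) *ᵥ ![1, 0] = v := by
  rw [← hg, Matrix.mulVec_mulVec, ← Units.val_mul, inv_mul_cancel, Units.val_one,
    Matrix.one_mulVec]

theorem Conj_col0 (N : M2 k) (i : Fin 2) : (N *ᵥ ![1, 0]) i = N i 0 := by
  simp [Matrix.mulVec, dotProduct, Fin.sum_univ_two]

theorem Conj_col1 (N : M2 k) (i : Fin 2) : (N *ᵥ ![0, 1]) i = N i 1 := by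
  simp [Matrix.mulVec, dotProduct, Fin.sum_univ_two]

theorem rm_conjR (g : GL (Fin 2) k) (r : G →* GL (Fin 2) k) (σ : G) : rm (conjR g r) σ = ad g (rm r σ) := by
  unfold rm ad
  rw [conjR_apply, Units.val_mul, Units.val_mul]

/-- `ad (g h g⁻¹) (g X g⁻¹) = g (ad h X) g⁻¹`. -/
theorem ad_conjR (g : GL (Fin 2) k) (r : G →* GL (Fin 2) k) (σ : G) (X : M2 k) :
    ad (conjR g r σ) (ad g X) = ad g (ad (r σ) X) := by
  rw [conjR_apply, Conj_ad_mul, Conj_ad_mul, Conj_ad_inv_ad]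

theorem conjC_add (g : GL (Fin 2) k) (c c' : G → M2 k) : conjC g (c + c') = conjC g c + conjC g c' := by
  funext σ
  exact Conj_ad_add g (c σ) (c' σ)

theorem conjC_cob (g : GL (Fin 2) k) (r : G →* GL (Fin 2) k) (X : M2 k) :
    conjC g (cob r X) = cob (conjR g r) (ad g X) := by
  funext σ
  show ad g (ad (r σ) X - X) = ad (conjR g r σ) (ad g X) - ad g X
  rw [Conj_ad_sub, ad_conjR]

theorem trace_ad (g : GL (Fin 2) k) (X : M2 k) : (ad g X).trace = X.trace := by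
  unfold ad
  rw [Matrix.trace_mul_comm, ← Matrix.mul_assoc, ← Units.val_mul, inv_mul_cancel, Units.val_one,
    Matrix.one_mul]

/-- if `M v = x v` and `g v = e₁` then `g M g⁻¹` has first column `(x, 0)`. -/
theorem ad_col_of_eigen {g : GL (Fin 2) k} {v : Fin 2 → k} (hg : (g : M2 k) *ᵥ v = ![1, 0]) {M : M2 k} {x : k}
    (h : M *ᵥ v = x • v) : ad g M 0 0 = x ∧ ad g M 1 0 = 0 := by
  have h1 : ad g M *ᵥ ![1, 0] = x • ![1, 0] := by
    unfold ad
    rw [← Matrix.mulVec_mulVec, Conj_inv_mulVec hg, ← Matrix.mulVec_mulVec, h, Matrix.mulVec_smul,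
      hg]
  constructor
  · rw [← Conj_col0 (ad g M) 0, h1]
    simp
  · rw [← Conj_col0 (ad g M) 1, h1]
    simp

/-- if `M w ∈ k v` for all `w` and `g v = e₁` then the second row of `g M g⁻¹` vanishes. -/
theorem ad_row_of_image {g : GL (Fin 2) k} {v : Fin 2 → k} (hg : (g : M2 k) *ᵥ v = ![1, 0]) {M : M2 k}
    (h : ∀ w : Fin 2 → k, ∃ y : k, M *ᵥ w = y • v) : ad g M 1 0 = 0 ∧ ad g M 1 1 = 0 := by
  have h1 : ∀ w : Fin 2 → k, (ad g M *ᵥ w) 1 = 0 := by
    intro w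
    obtain ⟨y, hy⟩ := h (((g⁻¹ : GL (Fin 2) k) : M2 k) *ᵥ w)
    unfold ad
    rw [← Matrix.mulVec_mulVec, ← Matrix.mulVec_mulVec, hy, Matrix.mulVec_smul, hg]
    simp
  exact ⟨by rw [← Conj_col0 (ad g M) 1, h1], by rw [← Conj_col1 (ad g M) 1, h1]⟩

theorem CocD.conj {P : Plc} {r : G →* GL (Fin 2) k} {c : G → M2 k} (h : CocD P r c) (g : GL (Fin 2) k) :
    CocD P (conjR g r) (conjC g c) := by
  obtain ⟨L, hL, hLc⟩ := h.smooth
  refine ⟨fun σ hσ τ hτ => ?_, fun σ hσ => ?_, ⟨L, hL, fun σ hσ hx => ?_⟩⟩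
  · show ad g (c (σ * τ)) = ad g (c σ) + ad (conjR g r σ) (ad g (c τ))
    rw [h.coc σ hσ τ hτ, ad_conjR]
    simp [ad, mul_add, add_mul]
  · show (ad g (c σ)).trace = 0
    rw [trace_ad, h.tr0 σ hσ]
  · show ad g (c σ) = 0
    rw [hLc σ hσ hx]
    simp [ad]

/-- `cob r X` is a smooth trace zero cocycle (`RSm r`). -/
theorem cocD_cob (P : Plc) {r : G →* GL (Fin 2) k} (hrs : RSm r) (X : M2 k) : CocD P r (cob r X) := by
  obtain ⟨L, hL, hLr⟩ := hrs
  refine ⟨fun σ _ τ _ => ?_, fun σ _ => ?_, ⟨L, hL, fun σ _ hx => ?_⟩⟩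
  · show ad (r (σ * τ)) X - X = (ad (r σ) X - X) + ad (r σ) (ad (r τ) X - X)
    have e1 : ad (r (σ * τ)) X = ad (r σ) (ad (r τ) X) := by
      rw [_root_.map_mul]
      simp [ad, mul_assoc]
    have e2 : ad (r σ) (ad (r τ) X - X) = ad (r σ) (ad (r τ) X) - ad (r σ) X := by
      simp [ad, mul_sub, sub_mul]
    rw [e1, e2]
    abel
  · show (ad (r σ) X - X).trace = 0
    rw [Matrix.trace_sub, trace_ad, sub_self]
  · show ad (r σ) X - X = 0
    rw [hLr σ hx]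
    simp [ad]

theorem CocD.add {P : Plc} {r : G →* GL (Fin 2) k} {c c' : G → M2 k} (h : CocD P r c) (h' : CocD P r c') :
    CocD P r (c + c') := by
  obtain ⟨L, hL, hLc⟩ := h.smooth
  obtain ⟨L', hL', hLc'⟩ := h'.smooth
  refine ⟨fun σ hσ τ hτ => ?_, fun σ hσ => ?_, ⟨L ⊔ L', IntermediateField.finiteDimensional_sup L L',
    fun σ hσ hx => ?_⟩⟩
  · simp only [Pi.add_apply]
    have e : ad (r σ) (c τ + c' τ) = ad (r σ) (c τ) + ad (r σ) (c' τ) := by
      simp [ad, mul_add, add_mul]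
    rw [h.coc σ hσ τ hτ, h'.coc σ hσ τ hτ, e]
    abel
  · simp only [Pi.add_apply]
    rw [Matrix.trace_add, h.tr0 σ hσ, h'.tr0 σ hσ, add_zero]
  · simp only [Pi.add_apply]
    rw [hLc σ hσ fun x hxL => hx x ((le_sup_left : L ≤ L ⊔ L') hxL),
      hLc' σ hσ fun x hxL => hx x ((le_sup_right : L' ≤ L ⊔ L') hxL), add_zero]

theorem RSm.conj {r : G →* GL (Fin 2) k} (h : RSm r) (g : GL (Fin 2) k) : RSm (conjR g r) := by
  obtain ⟨L, hL, hLr⟩ := h
  exact ⟨L, hL, fun σ hx => by rw [conjR_apply, hLr σ hx, mul_one, mul_inv_cancel]⟩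

/-- `OrdLine` in the coordinates `g v = e₁`.  `low`, and `rm 0 0 = x` if `r σ v = x v` : `ad_col_of_eigen`; `d_ine`: apply `ad_row_of_image` to `M = r σ - 1`
(`ad g (M - 1) = ad g M - 1`); `a_ine`: the matrix is upper triangular with `d = 1`, so `a = det = det (r σ) = m` (`Matrix.det_fin_two`, `hdet`,
`det (ad g M) = det M`). -/
theorem ut0_of_ordLine {P : Plc} {r : G →* GL (Fin 2) k} (hdet : DetOm P r) {v : Fin 2 → k} {g : GL (Fin 2) k}
    (hg : (g : M2 k) *ᵥ v = ![1, 0]) (h : OrdLine P r v) : UT0 P (conjR g r) := by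
  have hlow : ∀ σ ∈ P.dec, rm (conjR g r) σ 1 0 = 0 := by
    intro σ hσ
    obtain ⟨x, hx⟩ := h.dec σ hσ
    rw [rm_conjR]
    exact (ad_col_of_eigen hg hx).2
  have hd : ∀ σ ∈ P.ine, rm (conjR g r) σ 1 1 = 1 := by
    intro σ hσ
    have h1 := (ad_row_of_image hg (M := rm r σ - 1) (fun w => by
      obtain ⟨y, hy⟩ := h.ine σ hσ w
      exact ⟨y, by rw [Matrix.sub_mulVec, Matrix.one_mulVec, hy]⟩)).2
    have e : ad g (rm r σ - 1) = ad g (rm r σ) - 1 := by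
      simp [ad, mul_sub, sub_mul]
    rw [e, Matrix.sub_apply, Matrix.one_apply_eq, sub_eq_zero] at h1
    rw [rm_conjR]
    exact h1
  refine ⟨hlow, fun σ hσ m hm => ?_, hd⟩
  have h1 : (rm (conjR g r) σ).det = (m : k) := by
    rw [rm_conjR, ad, Matrix.det_units_conj]
    exact hdet σ hσ m hm
  rw [Matrix.det_fin_two, hd σ hσ, hlow σ (ine_le_dec P hσ), mul_one, mul_zero, sub_zero] at h1
  exact h1

/-- `NormV` in the coordinates `g v = e₁`.  `low`: `ad_col_of_eigen`; `diag`: second row zero on `I` (`ad_row_of_image`) and trace zero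
(`Matrix.trace_fin_two`, `trace_ad`). -/
theorem normC0_of_normV {P : Plc} {v : Fin 2 → k} {g : GL (Fin 2) k} (hg : (g : M2 k) *ᵥ v = ![1, 0])
    {c : G → M2 k} (htr : ∀ σ ∈ P.dec, (c σ).trace = 0) (h : NormV P v c) : NormC0 P (conjC g c) := by
  refine ⟨fun σ hσ => ?_, fun σ hσ => ?_⟩
  · obtain ⟨x, hx⟩ := h.dec σ hσ
    exact (ad_col_of_eigen hg hx).2
  · have h1 : ad g (c σ) 1 1 = 0 := (ad_row_of_image hg (h.ine σ hσ)).2
    have h2 : (ad g (c σ)).trace = 0 := by rw [trace_ad, htr σ (ine_le_dec P hσ)]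
    rw [Matrix.trace_fin_two, h1, add_zero] at h2
    exact h2

theorem Conj_ad_ad_inv (g : GL (Fin 2) k) (X : M2 k) : ad g (ad g⁻¹ X) = X := by
  have := Conj_ad_inv_ad g⁻¹ X
  rwa [inv_inv] at this

theorem Conj_ad_smul_one (g : GL (Fin 2) k) (a : k) : ad g (a • (1 : M2 k)) = a • (1 : M2 k) := by
  unfold ad
  rw [Matrix.mul_smul, Matrix.mul_one, Matrix.smul_mul, ← Units.val_mul, mul_inv_cancel,
    Units.val_one]

/-- **Transfer of the output contract.**  `add`: `conjC_add`; `cob`: `conjC_cob`; `congr`: clear; `count`: `T := T'.image (conjC g⁻¹)`;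
`BD P (conjR g r) (conjC g c - t') → BD P r (c - conjC g⁻¹ t')` with `X := ad g⁻¹ X'`; the two `H⁰` are in bijection via `ad g`
(`Nat.card_congr`). -/
theorem IsLocCond.conj {P : Plc} {r : G →* GL (Fin 2) k} (g : GL (Fin 2) k) {LL' : (G → M2 k) → Prop}
    (h : IsLocCond P (conjR g r) LL') : IsLocCond P r (fun c => LL' (conjC g c)) := by
  refine ⟨fun c c' hc hc' => ?_, fun X => ?_, fun c c' hcc hc => ?_, ?_⟩
  · show LL' (conjC g (c + c'))
    rw [conjC_add]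
    exact h.add _ _ hc hc'
  · show LL' (conjC g (Fermat.Agent.S56.F.cob r X))
    rw [conjC_cob]
    exact h.cob _
  · refine h.congr (conjC g c) (conjC g c') (fun σ hσ => ?_) hc
    show ad g (c σ) = ad g (c' σ)
    rw [hcc σ hσ]
  · classical
    obtain ⟨T', hcard, hT'⟩ := h.count
    refine ⟨T'.image (conjC g⁻¹), ?_, fun c hc => ?_⟩
    · refine le_trans Finset.card_image_le (le_trans hcard (le_of_eq ?_))
      congr 1
      refine Nat.card_congr
        { toFun := fun X => ⟨ad g⁻¹ X.1, by rw [trace_ad]; exact X.2.1, fun σ hσ => ?_⟩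
          invFun := fun X => ⟨ad g X.1, by rw [trace_ad]; exact X.2.1, fun σ hσ => ?_⟩
          left_inv := fun X => Subtype.ext (Conj_ad_ad_inv g X.1)
          right_inv := fun X => Subtype.ext (Conj_ad_inv_ad g X.1) }
      · have h1 := X.2.2 σ hσ
        have h2 := ad_conjR g r σ (ad g⁻¹ X.1)
        rw [Conj_ad_ad_inv, h1] at h2
        rw [← Conj_ad_inv_ad g (ad (r σ) (ad g⁻¹ X.1)), ← h2]
      · rw [ad_conjR, X.2.2 σ hσ]
    · obtain ⟨t', ht', X', hX', hBD⟩ := hT' _ hc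
      refine ⟨conjC g⁻¹ t', Finset.mem_image_of_mem _ ht', ad g⁻¹ X', by rw [trace_ad]; exact hX',
        fun σ hσ => ?_⟩
      have h1 := hBD σ hσ
      have h2 := ad_conjR g r σ (ad g⁻¹ X')
      rw [Conj_ad_ad_inv] at h2
      rw [h2] at h1
      have h3 : ad g (c σ) - t' σ = ad g (ad (r σ) (ad g⁻¹ X')) - X' := h1
      have h4 := congrArg (ad g⁻¹) h3
      rw [Conj_ad_sub, Conj_ad_sub, Conj_ad_inv_ad, Conj_ad_inv_ad] at h4
      exact h4

/-- The fallback: coboundaries on `D`.  `cob`: `cob r X = cob r (X - (X.trace / 2) • 1)` needs `2 ≠ 0`; `count`: `T = {0}`, `1 ≤ #H⁰ * #k`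
(both finite and nonempty). -/
theorem isLocCond_BD (P : Plc) [Finite k] (h2 : (2 : k) ≠ 0) (r : G →* GL (Fin 2) k) : IsLocCond P r (BD P r) := by
  refine ⟨?_, fun X => ?_, ?_, ?_⟩
  · rintro c c' ⟨X, hX, hc⟩ ⟨X', hX', hc'⟩
    refine ⟨X + X', by rw [Matrix.trace_add, hX, hX', add_zero], fun σ hσ => ?_⟩
    rw [Pi.add_apply, hc σ hσ, hc' σ hσ, Conj_ad_add]
    abel
  · refine ⟨X - (X.trace / 2) • (1 : M2 k), ?_, fun σ _ => ?_⟩
    · rw [Matrix.trace_sub, Matrix.trace_smul, Matrix.trace_one, Fintype.card_fin, smul_eq_mul]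
      push_cast
      field_simp
      ring
    · rw [Conj_ad_sub, Conj_ad_smul_one]
      show ad (r σ) X - X = _
      abel
  · rintro c c' hcc ⟨X, hX, hc⟩
    exact ⟨X, hX, fun σ hσ => by rw [← hcc σ hσ, hc σ hσ]⟩
  · refine ⟨{0}, ?_, fun c hc => ⟨0, Finset.mem_singleton_self _, by rwa [sub_zero]⟩⟩
    rw [Finset.card_singleton]
    have : Nonempty {X : M2 k // X.trace = 0 ∧ ∀ σ ∈ P.dec, ad (r σ) X = X} :=
      ⟨⟨0, Matrix.trace_zero _ _, fun σ _ => by simp [ad]⟩⟩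
    have : Finite (M2 k) := inferInstanceAs (Finite (Matrix (Fin 2) (Fin 2) k))
    exact Nat.succ_le_of_lt (Nat.mul_pos Nat.card_pos Nat.card_pos)

end Fermat.Agent.S56.F.Ord
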