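/-
S56 F-C, BLOCK `COUNT` (interface): the ordinary-flat local condition `LLut` satisfies the output contract.
The count itself is done in `Ord/Cnt/*.lean` (namespace `Fermat.Agent.S56.F.OrdC`, helper56); this file is the dictionary between the definitions of `Ord/Defs.lean` and those of
`Ord/Cnt/{Peu,LL}.lean`:  `Ord.PeuK ↔ OrdC.Peu` (all `l`), `UT + RSm → OrdC.OrdData`, `LLut ↔ OrdC.LLord`, `cob = OrdC.dd`, `BD = OrdC.BdD`.
-/
import Fermat.Agent.S56.F.Ord.LFX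
import Fermat.Agent.S56.F.Semilin
import Fermat.Agent.S56.F.Ord.Cnt.Main

set_option autoImplicit false

open Fermat.Agent.PT.Local Matrix
open Fermat.Agent.S53 (G M2)
open Fermat.Agent.S56.C (ad rm)

namespace Fermat.Agent.S56.F.Ord

variable {k : Type} [Field k]

section bridge

variable {P : Plc} [Algebra (ZMod P.ℓ) k] {ζ : Qb} {r : G →* GL (Fin 2) k} {c : G → M2 k}

theorem cob_eq_dd (r : G →* GL (Fin 2) k) (X : M2 k) : cob r X = OrdC.dd r X := rfl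

/-- `→`: `l.toAddMonoidHom`, `u = β ^ p`, `v u = v(p)^(p n)` (`map_pow`, `zpow_mul`, `zpow_natCast`).
`←`: given an additive `l` and a primitive `ζ'`, write `ζ' = ζ ^ i` (`IsPrimitiveRoot.eq_pow_of_pow_eq_one`), apply the hypothesis to the linear map `(i : ZMod p) • l.toZModLinearMap`
(`AddMonoidHom.toZModLinearMap`): `β ≠ 0`, `β^p = u`, `s β = ζ ^ ((i : ZMod p) * l (y s)).val * β = ζ' ^ (l (y s)).val * β` (`LF.zeta_pow_val_natCast_mul`, `← pow_mul`, `mul_comm`);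
`v β ^ p = v(p)^(p n)` gives `v β = v(p)^n` (`LF.v_eq_of_pow_eq`-like: `pow_left_injective₀`). -/
theorem peu_iff (hζ : IsPrimitiveRoot ζ P.ℓ) (y : GQ → k) :
    PeuK P y ↔ ∀ l : k →ₗ[ZMod P.ℓ] ZMod P.ℓ, OrdC.Peu P ζ (fun s => l (y s)) := by
  have : NeZero P.ℓ := ⟨P.prime.ne_zero⟩
  constructor
  · intro h l
    obtain ⟨β, hβ0, hβ, n, hn⟩ := h l.toAddMonoidHom ζ hζ
    refine ⟨β ^ P.ℓ, ⟨β, hβ0, rfl, hβ⟩, n, ?_⟩
    rw [map_pow, hn, ← zpow_natCast, ← _root_.zpow_mul, mul_comm]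
  · intro h l ζ' hζ'
    obtain ⟨i, -, hi⟩ := hζ.eq_pow_of_pow_eq_one hζ'.pow_eq_one
    obtain ⟨u, ⟨β, hβ0, hβu, hβ⟩, n, hn⟩ := h ((i : ZMod P.ℓ) • l.toZModLinearMap P.ℓ)
    refine ⟨β, hβ0, fun s hs => ?_, n, ?_⟩
    · rw [hβ s hs]
      congr 1
      have h1 : ((i : ZMod P.ℓ) • l.toZModLinearMap P.ℓ) (y s) = (i : ZMod P.ℓ) * l (y s) := by
        rw [LinearMap.smul_apply, smul_eq_mul, AddMonoidHom.coe_toZModLinearMap]
      show ζ ^ (((i : ZMod P.ℓ) • l.toZModLinearMap P.ℓ) (y s)).val = ζ' ^ (l (y s)).val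
      rw [h1, LF.zeta_pow_val_natCast_mul hζ.pow_eq_one, ← hi, ← pow_mul, ← pow_mul, mul_comm]
    · have h2 : P.v β ^ P.ℓ = (P.v (P.ℓ : Qb) ^ n) ^ P.ℓ := by
        rw [← map_pow, hβu, hn, ← zpow_natCast (P.v (P.ℓ : Qb) ^ n), ← _root_.zpow_mul, mul_comm]
      exact (pow_left_inj₀ zero_le zero_le P.prime.ne_zero).mp h2

/-- (`a_ine` with `m = (OrdC.om P σ).val`: `IsOm` by `OrdC.map_root`; `algebraMap x = (x.val : k)` by `ZMod.natCast_zmod_val`, `map_natCast`; `peu_iff`.) -/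
theorem ordData_of_UT (hp2 : P.ℓ ≠ 2) (hζ : IsPrimitiveRoot ζ P.ℓ) (hrs : RSm r) (hr : UT P r) :
    OrdC.OrdData P ζ r := by
  have : NeZero P.ℓ := ⟨P.prime.ne_zero⟩
  refine ⟨hp2, hζ, hr.low, fun σ hσ => ?_, hr.d_ine, hrs, (peu_iff hζ _).1 hr.peu⟩
  rw [hr.a_ine σ hσ (OrdC.om P σ).val (fun μ hμ => OrdC.map_root P hμ σ)]
  conv_rhs => rw [← ZMod.natCast_zmod_val (OrdC.om P σ), map_natCast]

theorem lCoc_iff : OrdC.LCoc P r c ↔ CocD P r c :=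
  ⟨fun h => ⟨h.coc, h.tr0, h.smooth⟩, fun h => ⟨h.coc, h.smooth, h.tr0⟩⟩

/-- scalar matrices have trivial coboundary. -/
theorem dd_sub_scalar (r : G →* GL (Fin 2) k) (X : M2 k) (a : k) :
    OrdC.dd r (X - a • (1 : M2 k)) = OrdC.dd r X := by
  funext σ
  have h1 : ad (r σ) (1 : M2 k) = 1 := by
    rw [ad, Matrix.mul_one, ← Units.val_mul, mul_inv_cancel, Units.val_one]
  rw [OrdC.dd_apply, OrdC.dd_apply, B.ad_sub, B.ad_smul, h1]
  abel

/-- `→`: `X' := X - (X.trace / 2) • 1` has trace `0` (`Matrix.trace_fin_two`/`trace_smul`, `trace_one`, `Fintype.card_fin`) and the same coboundary (`dd_sub_scalar`);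
`LCoc (c + dd r X')` by `LCoc.add`, `lCoc_dd`.  `←`: `c = (c + dd r X) - dd r X`, `LCoc.sub`, `lCoc_dd`.  `peu_iff` in both directions. -/
theorem lLut_iff (h2 : (2 : k) ≠ 0) (hζ : IsPrimitiveRoot ζ P.ℓ) (hrs : RSm r) :
    LLut P r c ↔ OrdC.LLord P ζ r c := by
  constructor
  · rintro ⟨hc, X, hN⟩
    refine ⟨X - (X.trace / 2) • (1 : M2 k), ?_, ?_⟩
    · rw [Matrix.trace_sub, Matrix.trace_smul, Matrix.trace_one, Fintype.card_fin, smul_eq_mul]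
      push_cast
      field_simp
      ring
    · rw [dd_sub_scalar, ← cob_eq_dd]
      refine ⟨?_, hN.low, hN.diag, (peu_iff hζ _).mp hN.peu⟩
      rw [cob_eq_dd]
      exact (lCoc_iff.mpr hc).add (OrdC.lCoc_dd hrs X)
  · rintro ⟨X, -, hN⟩
    refine ⟨?_, X, ?_⟩
    · have h1 : c = (c + OrdC.dd r X) - OrdC.dd r X := (add_sub_cancel_right _ _).symm
      rw [h1]
      exact lCoc_iff.mp (hN.lcoc.sub (OrdC.lCoc_dd hrs X))
    · rw [cob_eq_dd]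
      exact ⟨⟨hN.low, hN.diag⟩, (peu_iff hζ _).mpr hN.peu⟩

end bridge

/-- **BLOCK COUNT.** -/
theorem isLocCond_LLut (P : Plc) (hp2 : P.ℓ ≠ 2) [Finite k] [CharP k P.ℓ] (r : G →* GL (Fin 2) k)
    (hrs : RSm r) (hr : UT P r) : IsLocCond P r (LLut P r) := by
  letI : Algebra (ZMod P.ℓ) k := ZMod.algebra k P.ℓ
  haveI : Fact P.ℓ.Prime := ⟨P.prime⟩
  obtain ⟨ζ, hζ⟩ := exists_prim P.ℓ
  have S : OrdC.OrdData P ζ r := ordData_of_UT hp2 hζ hrs hr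
  have h2 : (2 : k) ≠ 0 := S.two_ne_zero
  have hiff : ∀ c, LLut P r c ↔ OrdC.LLord P ζ r c := fun c => lLut_iff h2 hζ hrs
  refine ⟨fun c c' h h' => ?_, fun X => ?_, fun c c' hc h => ?_, ?_⟩
  · exact (hiff _).2 ((OrdC.locCond hζ).add c c' ((hiff _).1 h) ((hiff _).1 h'))
  · rw [hiff, cob_eq_dd, ← dd_sub_scalar r X (X.trace / 2)]
    refine (OrdC.locCond (r := r) hζ).cob _ ?_
    rw [Matrix.trace_sub, Matrix.trace_smul, Matrix.trace_one, Fintype.card_fin, smul_eq_mul]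
    push_cast
    field_simp
    ring
  · exact (hiff _).2 ((OrdC.locCond hζ).congr c c' hc ((hiff _).1 h))
  · obtain ⟨T, hT, h⟩ := OrdC.count_LLord S
    exact ⟨T, hT, fun c hc => h c ((hiff c).1 hc)⟩

end Fermat.Agent.S56.F.Ord
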