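/-
S56 F-C: MAIN THEOREM of the ordinary case (assembly of the blocks C1, Conj, C2, COUNT).
-/
import Fermat.Agent.S56.F.Ord.C1
import Fermat.Agent.S56.F.Ord.C2
import Fermat.Agent.S56.F.Ord.Conj
import Fermat.Agent.S56.F.Ord.Count

set_option autoImplicit false

open Fermat.Agent.PT.Local Matrix
open Fermat.Agent.S53 (G M2)
open Fermat.Agent.S56.C (ad rm IsCoc)

namespace Fermat.Agent.S56.F.Ord

variable {k : Type} [Field k]

theorem cocD_of_isCoc (P : Plc) {r : G →* GL (Fin 2) k} {c : G → M2 k} (h1 : IsCoc r c) (h2 : C.Smooth c)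
    (h3 : C.TraceZero c) : CocD P r c := by
  obtain ⟨L, hL, hc⟩ := h2
  exact ⟨fun σ _ τ _ => h1 σ τ, fun σ _ => h3 σ, L, hL, fun σ _ h => hc σ h⟩

theorem main_ord (P : Plc) (hp2 : P.ℓ ≠ 2) [Finite k] [CharP k P.ℓ] (r : G →* GL (Fin 2) k) (hrs : RSm r)
    (hdet : DetOm P r) (hR : CaseR P r) :
    ∃ LL : (G → M2 k) → Prop, IsLocCond P r LL ∧
      ∀ c, IsCoc r c → C.Smooth c → C.TraceZero c → FlatMod P.ℓ (E2 k) (actE r c) → LL c := by
  haveI : Fact P.ℓ.Prime := ⟨P.prime⟩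
  obtain ⟨τ, hτ, m, hm, hm1⟩ := exists_ine_om P hp2
  have h2 : (2 : k) ≠ 0 := by
    intro h
    have h3 : ((2 : ℕ) : k) = 0 := by exact_mod_cast h
    rw [CharP.cast_eq_zero_iff k P.ℓ] at h3
    exact hp2 ((Nat.prime_dvd_prime_iff_eq P.prime Nat.prime_two).1 h3)
  by_cases hex : ∃ c0, IsCoc r c0 ∧ C.Smooth c0 ∧ C.TraceZero c0 ∧ FlatMod P.ℓ (E2 k) (actE r c0)
  swap
  · exact ⟨BD P r, isLocCond_BD P h2 r, fun c h1 h2 h3 h4 => absurd ⟨c, h1, h2, h3, h4⟩ hex⟩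
  obtain ⟨c0, hc0, hs0, ht0, hf0⟩ := hex
  obtain ⟨⟨v, hv, hev⟩, -⟩ := flat_general P r hdet hR hτ hm hm1 c0 hf0
  obtain ⟨g, hg⟩ := exists_conj hv
  have key : ∀ c, IsCoc r c → C.Smooth c → C.TraceZero c → FlatMod P.ℓ (E2 k) (actE r c) →
      UT0 P (conjR g r) ∧ PeuK P (fun σ => rm (conjR g r) σ 0 1) ∧ LLut P (conjR g r) (conjC g c) := by
    intro c h1 h2 h3 h4
    obtain ⟨hline, X, hX⟩ := (flat_general P r hdet hR hτ hm hm1 c h4).2 v hv hev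
    have hut := ut0_of_ordLine hdet hg hline
    have hcD : CocD P r c := cocD_of_isCoc P h1 h2 h3
    have hcD' : CocD P r (c + cob r X) := hcD.add (cocD_cob P hrs X)
    have hn0 : NormC0 P (conjC g (c + cob r X)) := normC0_of_normV hg hcD'.tr0 hX
    have hfl : FlatMod P.ℓ (E2 k) (actE (conjR g r) (conjC g (c + cob r X))) :=
      flatMod_conj g r _ (flatMod_add_cob r c X h4)
    obtain ⟨hp1, hp2'⟩ := peu_of_flat P (conjR g r) (hrs.conj g) hut _ (hcD'.conj g) hn0 hfl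
    refine ⟨hut, hp1, hcD.conj g, ad g X, ?_⟩
    rw [← conjC_cob, ← conjC_add]
    exact ⟨hn0, hp2'⟩
  obtain ⟨hut, hpeu, -⟩ := key c0 hc0 hs0 ht0 hf0
  have hUT : UT P (conjR g r) := ⟨hut, hpeu⟩
  exact ⟨fun c => LLut P (conjR g r) (conjC g c),
    (isLocCond_LLut P hp2 _ (hrs.conj g) hUT).conj g, fun c h1 h2 h3 h4 => (key c h1 h2 h3 h4).2.2⟩

end Fermat.Agent.S56.F.Ord
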