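/-
S56 F-C: THE EXPORT of the ordinary case, in the shape `B.FunContract`.
-/
import Fermat.Agent.S56.F.Ord.Main
import Fermat.Agent.S56.B.Contracts

set_option autoImplicit false

open Fermat.Agent.PT.Local Matrix
open Fermat.Agent.S53 (G M2)
open Fermat.Agent.S56.C (ad rm IsCoc)

namespace Fermat.Agent.S56.F.Ord

/-- **F-C.**  The flat local condition in CASE R. -/
theorem funContract (P : Plc) (hp2 : P.ℓ ≠ 2) {k : Type} [Field k] [Finite k] [CharP k P.ℓ]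
    (r : G →* GL (Fin 2) k) (hr : B.RSmooth r) (hdet : DetOmega P.ℓ r) (hR : CaseR P r) :
    B.FunContract r P.dec 1 (PrFlat P.ℓ r) := by
  obtain ⟨LL, hLL, hfl⟩ := main_ord P hp2 r hr (fun σ _ m hm => hdet σ m hm) hR
  obtain ⟨T, hT, hcov⟩ := hLL.count
  refine ⟨⟨LL, hLL.add, fun X _ => hLL.cob X, hLL.congr⟩,
    fun c hc => hfl c hc.1 hc.2.1 hc.2.2.1 (flatMod_of_flatAt hc.2.2.2), T, by rwa [pow_one], ?_⟩
  intro c hc
  obtain ⟨t, ht, X, hX, h⟩ := hcov c hc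
  exact ⟨t, ht, X, hX, h⟩

end Fermat.Agent.S56.F.Ord
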